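import Fermat.Agent.S40x.EdgeB.PrimeOrd
import Fermat.Agent.S40x.R2.Asm.Core

/-!
# The [ET]+[N] deliverables of `S44-IFACE-C3-ASM` in one literal (helper62)

`NodeOver F0 E0 i p u u' Oinf Ozero` packages, for ONE node `s`:

* downstairs: a UFD `R` with `Frac R = F0` (the node ring `R_s`), non-associated primes `u, u'`,
  `u u' = p ψ` with `ψ` a unit, and the two branches `Oinf, Ozero : ValuationSubring F0`
  (`(v1)+(v0)` of `S44-IFACE-R1-N5`: `R ⊆ O`, `R ∖ uR ⊆ Oˣ`, `p⁻¹ ∉ O`);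
* upstairs: a UFD `R'` with `Frac R' = E0` (the etale lift `R*_s`), a ring hom `i : R → R'`
  compatible with `F0 → E0`, `i u`, `i u'` prime, and the CONTRACTION
  `i u ^ n ∣ i x → u ^ n ∣ x` (same for `u'`)  [= `Node/SmoothEt.incl_pow_dvd_iff`].

Outputs, in the exact binder shapes of `R2/Asm/Core`:

* `NodeOver.slope_eq` = `Asm.node_slope_eq` with `Winf := R'_(i u)`, `winf := ordAt`, ...;
* `c3_pair` = `Asm.c3_core_pair` for two nodes (possibly different `R, R', i, u, u'`, the same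
  `F0, E0, Oinf, Ozero`): `n = n'`.
So C3-ASM only has to supply, per node, `H` (C3-CFE) and `hsl` (C3-SLOPE), and once the Galois /
Kummer data `σ, ft, h, a`.
-/

set_option autoImplicit false
set_option linter.unusedSectionVars false

namespace Fermat.Agent.S40x.AsmNode

open Fermat.Agent.S40x.PrimePlace Fermat.Agent.S40x.PrimeOrd Fermat.Agent.S40x.R2.Transitive
  Fermat.Agent.S40x.R2.Asm

section One

variable (F0 E0 : Type*) [Field F0] [Field E0] [Algebra F0 E0]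
variable {R : Type*} [CommRing R] [IsDomain R] [UniqueFactorizationMonoid R] [Algebra R F0]
  [IsFractionRing R F0]
variable {R' : Type*} [CommRing R'] [IsDomain R'] [UniqueFactorizationMonoid R'] [Algebra R' E0]
  [IsFractionRing R' E0]

/-- one node: the downstairs node ring `R ⊆ F0` with its two branches and the upstairs node ring
`R' ⊆ E0` (etale lift) with the contraction property. -/
structure NodeOver (i : R →+* R') (p : ℕ) (u u' : R) (Oinf Ozero : ValuationSubring F0) :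
    Prop where
  prime_u : Prime u
  prime_u' : Prime u'
  not_dvd : ¬ u ∣ u'
  not_dvd' : ¬ u' ∣ u
  mul_eq : ∃ ψ : R, IsUnit ψ ∧ u * u' = (p : R) * ψ
  inf_mem : ∀ x : R, algebraMap R F0 x ∈ Oinf
  inf_unit : ∀ x : R, ¬ u ∣ x → (algebraMap R F0 x)⁻¹ ∈ Oinf
  inf_p : (((p : ℕ) : F0))⁻¹ ∉ Oinf
  zero_mem : ∀ x : R, algebraMap R F0 x ∈ Ozero
  zero_unit : ∀ x : R, ¬ u' ∣ x → (algebraMap R F0 x)⁻¹ ∈ Ozero
  zero_p : (((p : ℕ) : F0))⁻¹ ∉ Ozero
  prime_iu : Prime (i u)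
  prime_iu' : Prime (i u')
  compat : ∀ x : R, algebraMap F0 E0 (algebraMap R F0 x) = algebraMap R' E0 (i x)
  contr : ∀ (n : ℕ) (x : R), i u ^ n ∣ i x → u ^ n ∣ x
  contr' : ∀ (n : ℕ) (x : R), i u' ^ n ∣ i x → u' ^ n ∣ x

variable {F0 E0}

/-- `q⁻¹ ∉ O` from `p⁻¹ ∉ O` (`q q' = p ψ`, `q'` and `ψ` units of `O`). -/
theorem inv_notMem_of_natCast {p : ℕ} {q q' ψ : R} (hq : Prime q) (hqq' : ¬ q ∣ q')
    (hψ : IsUnit ψ) (hrel : q * q' = (p : R) * ψ) (O : ValuationSubring F0)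
    (hmem : ∀ x : R, algebraMap R F0 x ∈ O)
    (hunit : ∀ x : R, ¬ q ∣ x → (algebraMap R F0 x)⁻¹ ∈ O) (hp : (((p : ℕ) : F0))⁻¹ ∉ O) :
    (algebraMap R F0 q)⁻¹ ∉ O := by
  intro hmem'
  apply hp
  have hq0 : algebraMap R F0 q ≠ 0 := iota_ne_zero hq.ne_zero
  have hq'0 : algebraMap R F0 q' ≠ 0 := iota_ne_zero (fun h0 => hqq' (h0 ▸ dvd_zero q))
  have hψ0 : algebraMap R F0 ψ ≠ 0 := iota_ne_zero hψ.ne_zero
  have h1 : algebraMap R F0 q * algebraMap R F0 q' = ((p : ℕ) : F0) * algebraMap R F0 ψ := by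
    rw [← map_mul, hrel, map_mul, map_natCast]
  have h2 : (((p : ℕ) : F0))⁻¹ =
      (algebraMap R F0 q)⁻¹ * ((algebraMap R F0 q')⁻¹ * algebraMap R F0 ψ) := by
    have hp0 : ((p : ℕ) : F0) ≠ 0 := by
      intro h0
      rw [h0, zero_mul] at h1
      exact (mul_ne_zero hq0 hq'0) h1
    field_simp
    linear_combination h1
  rw [h2]
  exact O.mul_mem _ _ hmem' (O.mul_mem _ _ (hunit q' hqq') (hmem ψ))

/-- `ord_q p = 1`. -/
theorem ordAt_natCast {p : ℕ} {q q' ψ : R} (hq : Prime q) (hq' : Prime q') (hqq' : ¬ q ∣ q')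
    (hψ : IsUnit ψ) (hrel : q * q' = (p : R) * ψ) :
    ordAt (F := F0) hq (((p : ℕ) : F0)) = 1 := by
  have hψq : ¬ q ∣ ψ := fun h => hq.not_isUnit (isUnit_of_dvd_unit h hψ)
  have h1 : ((p : ℕ) : F0) * algebraMap R F0 ψ = algebraMap R F0 (q * q') := by
    rw [hrel, map_mul, map_natCast]
  rw [ordAt_of_mul_eq hq (mul_ne_zero hq.ne_zero hq'.ne_zero) hψ.ne_zero h1,
    mult_mul hq hq.ne_zero hq'.ne_zero, multiplicity_self, multiplicity_eq_zero.mpr hqq',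
    multiplicity_eq_zero.mpr hψq]
  rfl

namespace NodeOver

variable {i : R →+* R'} {p : ℕ} {u u' : R} {Oinf Ozero : ValuationSubring F0}

theorem oinf_eq (h : NodeOver F0 E0 i p u u' Oinf Ozero) :
    Oinf = valuationSubring (F := F0) h.prime_u := by
  obtain ⟨ψ, hψ, hrel⟩ := h.mul_eq
  exact eq_valuationSubring h.prime_u Oinf h.inf_mem h.inf_unit
    (inv_notMem_of_natCast h.prime_u h.not_dvd hψ hrel Oinf h.inf_mem h.inf_unit h.inf_p)

theorem ozero_eq (h : NodeOver F0 E0 i p u u' Oinf Ozero) :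
    Ozero = valuationSubring (F := F0) h.prime_u' := by
  obtain ⟨ψ, hψ, hrel⟩ := h.mul_eq
  have hrel' : u' * u = (p : R) * ψ := by rw [mul_comm, hrel]
  exact eq_valuationSubring h.prime_u' Ozero h.zero_mem h.zero_unit
    (inv_notMem_of_natCast h.prime_u' h.not_dvd' hψ hrel' Ozero h.zero_mem h.zero_unit h.zero_p)

/-- the downstairs order functions are order functions of `Oinf`, `Ozero`. -/
theorem isOrd_inf (h : NodeOver F0 E0 i p u u' Oinf Ozero) :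
    IsOrd Oinf (ordAt (F := F0) h.prime_u) := by
  have := isOrd (F := F0) h.prime_u
  rwa [← h.oinf_eq] at this

theorem isOrd_zero (h : NodeOver F0 E0 i p u u' Oinf Ozero) :
    IsOrd Ozero (ordAt (F := F0) h.prime_u') := by
  have := isOrd (F := F0) h.prime_u'
  rwa [← h.ozero_eq] at this

theorem ordAt_inf_natCast (h : NodeOver F0 E0 i p u u' Oinf Ozero) :
    ordAt (F := F0) h.prime_u (((p : ℕ) : F0)) = 1 := by
  obtain ⟨ψ, hψ, hrel⟩ := h.mul_eq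
  exact ordAt_natCast h.prime_u h.prime_u' h.not_dvd hψ hrel

theorem ordAt_zero_natCast (h : NodeOver F0 E0 i p u u' Oinf Ozero) :
    ordAt (F := F0) h.prime_u' (((p : ℕ) : F0)) = 1 := by
  obtain ⟨ψ, hψ, hrel⟩ := h.mul_eq
  have hrel' : u' * u = (p : R) * ψ := by rw [mul_comm, hrel]
  exact ordAt_natCast h.prime_u' h.prime_u h.not_dvd' hψ hrel'

theorem natCast_ne_zero (h : NodeOver F0 E0 i p u u' Oinf Ozero) : ((p : ℕ) : F0) ≠ 0 := by
  intro h0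
  apply h.inf_p
  rw [h0, inv_zero]
  exact Oinf.zero_mem

/-- any normalised order function of `Oinf` is the `u`-adic one. -/
theorem vinf_eq (h : NodeOver F0 E0 i p u u' Oinf Ozero) {vinf : F0 → ℤ} (hv : IsOrd Oinf vinf)
    (hvp : vinf (((p : ℕ) : F0)) = 1) {e : F0} (he : e ≠ 0) :
    ordAt (F := F0) h.prime_u e = vinf e :=
  h.isOrd_inf.unique hv h.natCast_ne_zero (by rw [h.ordAt_inf_natCast]; exact one_ne_zero)
    (by rw [h.ordAt_inf_natCast, hvp]) he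

theorem vzero_eq (h : NodeOver F0 E0 i p u u' Oinf Ozero) {vzero : F0 → ℤ}
    (hv : IsOrd Ozero vzero) (hvp : vzero (((p : ℕ) : F0)) = 1) {e : F0} (he : e ≠ 0) :
    ordAt (F := F0) h.prime_u' e = vzero e :=
  h.isOrd_zero.unique hv h.natCast_ne_zero (by rw [h.ordAt_zero_natCast]; exact one_ne_zero)
    (by rw [h.ordAt_zero_natCast, hvp]) he

theorem not_iu_dvd (h : NodeOver F0 E0 i p u u' Oinf Ozero) : ¬ i u ∣ i u' := fun hd =>
  h.not_dvd (by simpa using h.contr 1 u' (by simpa using hd))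

theorem not_iu'_dvd (h : NodeOver F0 E0 i p u u' Oinf Ozero) : ¬ i u' ∣ i u := fun hd =>
  h.not_dvd' (by simpa using h.contr' 1 u (by simpa using hd))

/-- `hWinf` of `Asm.c3_core_pair`. -/
theorem mem_winf_iff (h : NodeOver F0 E0 i p u u' Oinf Ozero) (e : F0) :
    algebraMap F0 E0 e ∈ valuationSubring (F := E0) h.prime_iu ↔ e ∈ Oinf := by
  rw [algebraMap_mem_valuationSubring_iff h.prime_u i h.prime_iu h.compat h.contr e, ← h.oinf_eq]

theorem mem_wzero_iff (h : NodeOver F0 E0 i p u u' Oinf Ozero) (e : F0) :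
    algebraMap F0 E0 e ∈ valuationSubring (F := E0) h.prime_iu' ↔ e ∈ Ozero := by
  rw [algebraMap_mem_valuationSubring_iff h.prime_u' i h.prime_iu' h.compat h.contr' e,
    ← h.ozero_eq]

/-- **one node** = `Asm.node_slope_eq` with `Winf := R'_(i u)`, `winf := ord_{i u}`, etc. -/
theorem slope_eq (h : NodeOver F0 E0 i p u u' Oinf Ozero) (hp : p ≠ 0) {ft : E0} (hft : ft ≠ 0)
    (H : ∀ q : R', Prime q → ¬ Associated q (i u) → ¬ Associated q (i u') →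
      ∀ f1 f2 : R', f2 ≠ 0 → ft * algebraMap R' E0 f2 = algebraMap R' E0 f1 →
      ∀ n1 n2 : ℕ, q ^ n1 ∣ f1 → ¬ q ^ (n1 + 1) ∣ f1 → q ^ n2 ∣ f2 → ¬ q ^ (n2 + 1) ∣ f2 →
        (p : ℤ) ∣ (n1 : ℤ) - n2)
    (n : ZMod p)
    (hsl : ∀ (A B : ℤ) (ε : R'ˣ) (g1 g2 : R'), ¬ i u ∣ g1 → ¬ i u' ∣ g1 → ¬ i u ∣ g2 →
      ¬ i u' ∣ g2 →
      ft = algebraMap R' E0 ε * algebraMap R' E0 (i u) ^ A * algebraMap R' E0 (i u') ^ B *
        (algebraMap R' E0 g1 / algebraMap R' E0 g2) ^ p → n = ((B - A : ℤ) : ZMod p)) :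
    n = ((ordAt (F := E0) h.prime_iu' ft - ordAt (F := E0) h.prime_iu ft : ℤ) : ZMod p) :=
  node_slope_eq hp h.prime_iu h.prime_iu' (isOrd (F := E0) h.prime_iu)
    (isOrd (F := E0) h.prime_iu') (ordAt_self h.prime_iu)
    (fun _ hr => ordAt_of_not_dvd h.prime_iu hr) (ordAt_self h.prime_iu')
    (fun _ hr => ordAt_of_not_dvd h.prime_iu' hr) h.not_iu_dvd h.not_iu'_dvd hft H n hsl

end NodeOver

end One

/-! ### Two nodes -/

section Two

variable {F0 E0 : Type*} [Field F0] [Field E0] [Algebra F0 E0] [FiniteDimensional F0 E0]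
  [IsGalois F0 E0]
variable {R₁ : Type*} [CommRing R₁] [IsDomain R₁] [UniqueFactorizationMonoid R₁] [Algebra R₁ F0]
  [IsFractionRing R₁ F0]
variable {R₁' : Type*} [CommRing R₁'] [IsDomain R₁'] [UniqueFactorizationMonoid R₁']
  [Algebra R₁' E0] [IsFractionRing R₁' E0]
variable {R₂ : Type*} [CommRing R₂] [IsDomain R₂] [UniqueFactorizationMonoid R₂] [Algebra R₂ F0]
  [IsFractionRing R₂ F0]
variable {R₂' : Type*} [CommRing R₂'] [IsDomain R₂'] [UniqueFactorizationMonoid R₂']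
  [Algebra R₂' E0] [IsFractionRing R₂' E0]

/-- **C3 core for two nodes**, all [ET]/[N] hypotheses of `Asm.c3_core_pair` discharged from the
two `NodeOver` data.  Remaining inputs: the Galois/Kummer data (`σ`, `ft`, `h`, `a`, `hσ`), the
Kummer glue `p ∣ v a` for the two normalised order functions of `F0` ([KU]; stated for the
`u`-adic orders of the FIRST node, which are THE normalised order functions of `Oinf`, `Ozero`),
and per node `H` (C3-CFE) and `hsl` (C3-SLOPE). -/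
theorem c3_pair {p : ℕ} (hp : p ≠ 0) {Oinf Ozero : ValuationSubring F0}
    {i₁ : R₁ →+* R₁'} {u₁ u₁' : R₁} (h₁ : NodeOver F0 E0 i₁ p u₁ u₁' Oinf Ozero)
    {i₂ : R₂ →+* R₂'} {u₂ u₂' : R₂} (h₂ : NodeOver F0 E0 i₂ p u₂ u₂' Oinf Ozero)
    {σ : E0 ≃ₐ[F0] E0} (hgen : ∀ g : E0 ≃ₐ[F0] E0, g ∈ Subgroup.zpowers σ)
    {ft h : E0} {a : F0} (hft : ft ≠ 0) (hh : h ≠ 0) (ha : a ≠ 0)
    (hσ : σ ft = algebraMap F0 E0 a * h ^ p * ft)
    (hainf : ∀ v : F0 → ℤ, IsOrd Oinf v → v (((p : ℕ) : F0)) = 1 → (p : ℤ) ∣ v a)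
    (hazero : ∀ v : F0 → ℤ, IsOrd Ozero v → v (((p : ℕ) : F0)) = 1 → (p : ℤ) ∣ v a)
    -- first node
    (H₁ : ∀ q : R₁', Prime q → ¬ Associated q (i₁ u₁) → ¬ Associated q (i₁ u₁') →
      ∀ f1 f2 : R₁', f2 ≠ 0 → ft * algebraMap R₁' E0 f2 = algebraMap R₁' E0 f1 →
      ∀ n1 n2 : ℕ, q ^ n1 ∣ f1 → ¬ q ^ (n1 + 1) ∣ f1 → q ^ n2 ∣ f2 → ¬ q ^ (n2 + 1) ∣ f2 →
        (p : ℤ) ∣ (n1 : ℤ) - n2)
    (n₁ : ZMod p)
    (hsl₁ : ∀ (A B : ℤ) (ε : R₁'ˣ) (g1 g2 : R₁'), ¬ i₁ u₁ ∣ g1 → ¬ i₁ u₁' ∣ g1 → ¬ i₁ u₁ ∣ g2 →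
      ¬ i₁ u₁' ∣ g2 →
      ft = algebraMap R₁' E0 ε * algebraMap R₁' E0 (i₁ u₁) ^ A * algebraMap R₁' E0 (i₁ u₁') ^ B *
        (algebraMap R₁' E0 g1 / algebraMap R₁' E0 g2) ^ p → n₁ = ((B - A : ℤ) : ZMod p))
    -- second node
    (H₂ : ∀ q : R₂', Prime q → ¬ Associated q (i₂ u₂) → ¬ Associated q (i₂ u₂') →
      ∀ f1 f2 : R₂', f2 ≠ 0 → ft * algebraMap R₂' E0 f2 = algebraMap R₂' E0 f1 →
      ∀ n1 n2 : ℕ, q ^ n1 ∣ f1 → ¬ q ^ (n1 + 1) ∣ f1 → q ^ n2 ∣ f2 → ¬ q ^ (n2 + 1) ∣ f2 →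
        (p : ℤ) ∣ (n1 : ℤ) - n2)
    (n₂ : ZMod p)
    (hsl₂ : ∀ (A B : ℤ) (ε : R₂'ˣ) (g1 g2 : R₂'), ¬ i₂ u₂ ∣ g1 → ¬ i₂ u₂' ∣ g1 → ¬ i₂ u₂ ∣ g2 →
      ¬ i₂ u₂' ∣ g2 →
      ft = algebraMap R₂' E0 ε * algebraMap R₂' E0 (i₂ u₂) ^ A * algebraMap R₂' E0 (i₂ u₂') ^ B *
        (algebraMap R₂' E0 g1 / algebraMap R₂' E0 g2) ^ p → n₂ = ((B - A : ℤ) : ZMod p)) :
    n₁ = n₂ := by
  -- the normalised order functions of `F0`
  set vinf : F0 → ℤ := ordAt (F := F0) h₁.prime_u with hvinf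
  set vzero : F0 → ℤ := ordAt (F := F0) h₁.prime_u' with hvzero
  have hVinf : IsOrd Oinf vinf := h₁.isOrd_inf
  have hVzero : IsOrd Ozero vzero := h₁.isOrd_zero
  have hvinfp : vinf (((p : ℕ) : F0)) = 1 := h₁.ordAt_inf_natCast
  have hvzerop : vzero (((p : ℕ) : F0)) = 1 := h₁.ordAt_zero_natCast
  refine c3_core_pair (p := p) (Oinf := Oinf) (Ozero := Ozero) (vinf := vinf) (vzero := vzero)
    (c := ((p : ℕ) : F0)) h₁.natCast_ne_zero (by rw [hvinfp]; exact one_ne_zero)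
    (by rw [hvzerop]; exact one_ne_zero) hgen hft hh ha hσ (hainf vinf hVinf hvinfp)
    (hazero vzero hVzero hvzerop)
    (Winf := valuationSubring (F := E0) h₁.prime_iu)
    (Wzero := valuationSubring (F := E0) h₁.prime_iu')
    (winf := ordAt (F := E0) h₁.prime_iu) (wzero := ordAt (F := E0) h₁.prime_iu')
    h₁.mem_winf_iff h₁.mem_wzero_iff (isOrd h₁.prime_iu) (isOrd h₁.prime_iu') ?_ ?_ n₁
    (h₁.slope_eq hp hft H₁ n₁ hsl₁)
    (Winf' := valuationSubring (F := E0) h₂.prime_iu)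
    (Wzero' := valuationSubring (F := E0) h₂.prime_iu')
    (winf' := ordAt (F := E0) h₂.prime_iu) (wzero' := ordAt (F := E0) h₂.prime_iu')
    h₂.mem_winf_iff h₂.mem_wzero_iff (isOrd h₂.prime_iu) (isOrd h₂.prime_iu') ?_ ?_ n₂
    (h₂.slope_eq hp hft H₂ n₂ hsl₂)
  · intro e he
    exact ordAt_algebraMap_over h₁.prime_u i₁ h₁.prime_iu h₁.compat h₁.contr he
  · intro e he
    exact ordAt_algebraMap_over h₁.prime_u' i₁ h₁.prime_iu' h₁.compat h₁.contr' he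
  · intro e he
    rw [ordAt_algebraMap_over h₂.prime_u i₂ h₂.prime_iu h₂.compat h₂.contr he]
    exact h₂.vinf_eq hVinf hvinfp he
  · intro e he
    rw [ordAt_algebraMap_over h₂.prime_u' i₂ h₂.prime_iu' h₂.compat h₂.contr' he]
    exact h₂.vzero_eq hVzero hvzerop he

end Two

end Fermat.Agent.S40x.AsmNode
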