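import Fermat.Agent.S40x.EdgeB.TameVal
import Fermat.Agent.S40x.Edge.UFD
import Fermat.Agent.S40x.Node.NodeDatum

/-!
# (TAME) at a node from the literal (N-OUT) `IsNodeRing S p u u'` (N5; helper62)

`Node/NodeDatum.IsNodeRing` (helper50) + the valuation half `(v1),(v0),(d3),(n4)` of note
`S44-IFACE-R1-N5`  ==>  the consumer literal (TAME):
`ord_{P_s} red_inf (f / p^a) ≡ b - a (mod p)` whenever `v_inf f = a`, `v_0 f = b`.
The node ring is a UFD by `Edge.ufm_of_quotient_principal` (helper54) and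
`IsNodeRing.quotient_isPrincipal`; the edge factorisation is `Edge.exists_edge_factorisation_div`.
-/

set_option linter.unusedSectionVars false

namespace Fermat.Agent.S40x.TameNode

open Fermat.Agent.S40x.Node Fermat.Agent.S40x.TameVal AlgebraicCurve

variable {F0 : Type*} [Field F0]
variable {S : Type*} [CommRing S] [IsDomain S] [IsNoetherianRing S] [IsLocalRing S] [Algebra S F0]
  [IsFractionRing S F0]
variable {k κ : Type*} [Field k] [Field κ] [Algebra k κ]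

local notation "ι" => algebraMap S F0

/-- a node ring is a unique factorisation domain. -/
theorem ufm_of_isNodeRing {p : ℕ} {u u' : S} (hN : IsNodeRing S p u u') :
    UniqueFactorizationMonoid S :=
  Fermat.Agent.S40x.Edge.ufm_of_quotient_principal u hN.u_mem_jacobson hN.prime_u
    hN.quotient_isPrincipal

/-- **(TAME) at a node; `(n4)` in the exact-exponent form `H` of
`Edge.exists_edge_factorisation_field` (= output shape of the CFE leaf).** -/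
theorem tame_of_isNodeRing {p : ℕ} {u u' : S} (hN : IsNodeRing S p u u')
    (Oinf Ozero : ValuationSubring F0)
    (hInf_mem : ∀ x : S, ι x ∈ Oinf) (hInf_unit : ∀ x : S, ¬ u ∣ x → (ι x)⁻¹ ∈ Oinf)
    (hInf_p : (((p : ℕ) : F0))⁻¹ ∉ Oinf)
    (hZero_mem : ∀ x : S, ι x ∈ Ozero) (hZero_unit : ∀ x : S, ¬ u' ∣ x → (ι x)⁻¹ ∈ Ozero)
    (hZero_p : (((p : ℕ) : F0))⁻¹ ∉ Ozero)
    (redInf : Oinf →+* κ)
    (Ps : Place k κ)
    (hPs_nonneg : ∀ x : S, 0 ≤ Ps.ord (redInf ⟨ι x, hInf_mem x⟩))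
    (hPs_u' : Ps.ord (redInf ⟨ι u', hInf_mem u'⟩) = 1)
    (hp0 : 0 < p) {f : F0} (hf : f ≠ 0)
    (H : ∀ h : S, Prime h → ¬ Associated h u → ¬ Associated h u' →
      ∀ f1 f2 : S, f2 ≠ 0 → f * ι f2 = ι f1 →
      ∀ n1 n2 : ℕ, h ^ n1 ∣ f1 → ¬ h ^ (n1 + 1) ∣ f1 → h ^ n2 ∣ f2 → ¬ h ^ (n2 + 1) ∣ f2 →
        (p : ℤ) ∣ (n1 : ℤ) - n2)
    {a b : ℤ} (ha : Oinf.valuation f = Oinf.valuation ((p : ℕ) : F0) ^ a)
    (hb : Ozero.valuation f = Ozero.valuation ((p : ℕ) : F0) ^ b) :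
    ∃ hmem : f / ((p : ℕ) : F0) ^ a ∈ Oinf,
      Ps.ord (redInf ⟨f / ((p : ℕ) : F0) ^ a, hmem⟩) ≡ b - a [ZMOD p] := by
  have := ufm_of_isNodeRing hN
  obtain ⟨ψ, hψ⟩ := hN.mul_eq
  exact tame_val hN.prime_u hN.prime_u' hN.not_associated ψ.isUnit hψ Oinf Ozero hInf_mem hInf_unit
    hInf_p hZero_mem hZero_unit hZero_p redInf Ps hPs_nonneg hPs_u' hp0 hf H ha hb

/-- **(TAME) at a node; `(n4)` in the multiplicity form.** -/
theorem tame_of_isNodeRing_of_multiplicity {p : ℕ} {u u' : S} (hN : IsNodeRing S p u u')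
    (Oinf Ozero : ValuationSubring F0)
    (hInf_mem : ∀ x : S, ι x ∈ Oinf) (hInf_unit : ∀ x : S, ¬ u ∣ x → (ι x)⁻¹ ∈ Oinf)
    (hInf_p : (((p : ℕ) : F0))⁻¹ ∉ Oinf)
    (hZero_mem : ∀ x : S, ι x ∈ Ozero) (hZero_unit : ∀ x : S, ¬ u' ∣ x → (ι x)⁻¹ ∈ Ozero)
    (hZero_p : (((p : ℕ) : F0))⁻¹ ∉ Ozero)
    (redInf : Oinf →+* κ)
    (Ps : Place k κ)
    (hPs_nonneg : ∀ x : S, 0 ≤ Ps.ord (redInf ⟨ι x, hInf_mem x⟩))
    (hPs_u' : Ps.ord (redInf ⟨ι u', hInf_mem u'⟩) = 1)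
    (hp0 : 0 < p) {f : F0} (hf : f ≠ 0)
    (hdiv : ∀ q : S, Prime q → ¬ Associated q u → ¬ Associated q u' →
      ∀ f1 f2 : S, f1 ≠ 0 → f2 ≠ 0 → f = ι f1 / ι f2 →
        (p : ℤ) ∣ (multiplicity q f1 : ℤ) - multiplicity q f2)
    {a b : ℤ} (ha : Oinf.valuation f = Oinf.valuation ((p : ℕ) : F0) ^ a)
    (hb : Ozero.valuation f = Ozero.valuation ((p : ℕ) : F0) ^ b) :
    ∃ hmem : f / ((p : ℕ) : F0) ^ a ∈ Oinf,
      Ps.ord (redInf ⟨f / ((p : ℕ) : F0) ^ a, hmem⟩) ≡ b - a [ZMOD p] := by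
  have := ufm_of_isNodeRing hN
  exact tame_of_isNodeRing hN Oinf Ozero hInf_mem hInf_unit hInf_p hZero_mem hZero_unit hZero_p
    redInf Ps hPs_nonneg hPs_u' hp0 hf (exact_of_multiplicity hf hdiv) ha hb

/-- **(TAME) at a node, place-level `(n4)`**: `p ∣ v.ord f` for every place `v` of `F0 / K0`,
`K0 ⊆ S[1/p]`. -/
theorem tame_of_isNodeRing_of_places {K0 : Type*} [Field K0] [Algebra K0 F0]
    {p : ℕ} {u u' : S} (hN : IsNodeRing S p u u')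
    (Oinf Ozero : ValuationSubring F0)
    (hInf_mem : ∀ x : S, ι x ∈ Oinf) (hInf_unit : ∀ x : S, ¬ u ∣ x → (ι x)⁻¹ ∈ Oinf)
    (hInf_p : (((p : ℕ) : F0))⁻¹ ∉ Oinf)
    (hZero_mem : ∀ x : S, ι x ∈ Ozero) (hZero_unit : ∀ x : S, ¬ u' ∣ x → (ι x)⁻¹ ∈ Ozero)
    (hZero_p : (((p : ℕ) : F0))⁻¹ ∉ Ozero)
    (redInf : Oinf →+* κ)
    (Ps : Place k κ)
    (hPs_nonneg : ∀ x : S, 0 ≤ Ps.ord (redInf ⟨ι x, hInf_mem x⟩))
    (hPs_u' : Ps.ord (redInf ⟨ι u', hInf_mem u'⟩) = 1)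
    (hK0 : ∀ c : K0, ∃ (x : S) (n : ℕ), algebraMap K0 F0 c * ((p : ℕ) : F0) ^ n = ι x)
    (hp0 : 0 < p) {f : F0} (hf : f ≠ 0)
    (hplaces : ∀ v : Place K0 F0, (p : ℤ) ∣ v.ord f)
    {a b : ℤ} (ha : Oinf.valuation f = Oinf.valuation ((p : ℕ) : F0) ^ a)
    (hb : Ozero.valuation f = Ozero.valuation ((p : ℕ) : F0) ^ b) :
    ∃ hmem : f / ((p : ℕ) : F0) ^ a ∈ Oinf,
      Ps.ord (redInf ⟨f / ((p : ℕ) : F0) ^ a, hmem⟩) ≡ b - a [ZMOD p] := by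
  have := ufm_of_isNodeRing hN
  obtain ⟨ψ, hψ⟩ := hN.mul_eq
  exact tame_val_of_places hN.prime_u hN.prime_u' hN.not_associated ψ.isUnit hψ Oinf Ozero hInf_mem
    hInf_unit hInf_p hZero_mem hZero_unit hZero_p redInf Ps hPs_nonneg hPs_u' hK0 hp0 hf hplaces
    ha hb

/-- existence of the exponent `a = v_inf f` (for `b = v_0 f` apply it to `hN.symm`, `Ozero`). -/
theorem exists_valuation_eq_zpow_of_isNodeRing {p : ℕ} {u u' : S} (hN : IsNodeRing S p u u')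
    (O : ValuationSubring F0)
    (hmem : ∀ x : S, ι x ∈ O) (hunit : ∀ x : S, ¬ u ∣ x → (ι x)⁻¹ ∈ O)
    {f : F0} (hf : f ≠ 0) :
    ∃ a : ℤ, O.valuation f = O.valuation ((p : ℕ) : F0) ^ a := by
  have := ufm_of_isNodeRing hN
  obtain ⟨ψ, hψ⟩ := hN.mul_eq
  exact exists_valuation_eq_zpow hN.prime_u hN.prime_u' hN.not_associated ψ.isUnit hψ O hmem hunit
    hf

end Fermat.Agent.S40x.TameNode
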