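import Fermat.Agent.S40x.EdgeB.AsmNode
import Fermat.Agent.S40x.EdgeB.TameNode
import Fermat.Agent.S40x.Node.SmoothEt

/-!
# `NodeOver` from the literals of block R1 (helper62)

* `nodeOver_of_isNodeRing` : `IsNodeRing R p u u'` downstairs + `IsNodeRing R' p (i u) (i u')`
  upstairs + contraction + the branch facts `(v1)+(v0)` ==> `AsmNode.NodeOver`;
* `nodeOver_loc` : the same for the etale lift `R' := SmoothEt.Loc Q c hc`, `i := SmoothEt.incl`
  (upstairs literal and contraction are `SmoothEt.isNodeRing_loc`, `SmoothEt.incl_pow_dvd_iff`).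
-/

set_option autoImplicit false
set_option linter.unusedSectionVars false

namespace Fermat.Agent.S40x.AsmNodeEt

open Fermat.Agent.S40x.Node Fermat.Agent.S40x.AsmNode IsLocalRing

variable {F0 E0 : Type*} [Field F0] [Field E0] [Algebra F0 E0]
variable {R : Type*} [CommRing R] [IsDomain R] [IsNoetherianRing R] [IsLocalRing R]
  [UniqueFactorizationMonoid R] [Algebra R F0] [IsFractionRing R F0]

/-- `NodeOver` from two node rings and the contraction property. -/
theorem nodeOver_of_isNodeRing {R' : Type*} [CommRing R'] [IsDomain R'] [IsNoetherianRing R']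
    [IsLocalRing R'] [UniqueFactorizationMonoid R'] [Algebra R' E0] [IsFractionRing R' E0]
    {i : R →+* R'} {p : ℕ} {u u' : R} (hN : IsNodeRing R p u u')
    (hN' : IsNodeRing R' p (i u) (i u'))
    (compat : ∀ x : R, algebraMap F0 E0 (algebraMap R F0 x) = algebraMap R' E0 (i x))
    (contr : ∀ (z : R) (n : ℕ) (x : R), i z ^ n ∣ i x → z ^ n ∣ x)
    (Oinf Ozero : ValuationSubring F0)
    (hInf_mem : ∀ x : R, algebraMap R F0 x ∈ Oinf)
    (hInf_unit : ∀ x : R, ¬ u ∣ x → (algebraMap R F0 x)⁻¹ ∈ Oinf)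
    (hInf_p : (((p : ℕ) : F0))⁻¹ ∉ Oinf)
    (hZero_mem : ∀ x : R, algebraMap R F0 x ∈ Ozero)
    (hZero_unit : ∀ x : R, ¬ u' ∣ x → (algebraMap R F0 x)⁻¹ ∈ Ozero)
    (hZero_p : (((p : ℕ) : F0))⁻¹ ∉ Ozero) :
    NodeOver F0 E0 i p u u' Oinf Ozero where
  prime_u := hN.prime_u
  prime_u' := hN.prime_u'
  not_dvd := hN.not_dvd
  not_dvd' := hN.symm.not_dvd
  mul_eq := by
    obtain ⟨ψ, hψ⟩ := hN.mul_eq
    exact ⟨ψ, ψ.isUnit, hψ⟩
  inf_mem := hInf_mem
  inf_unit := hInf_unit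
  inf_p := hInf_p
  zero_mem := hZero_mem
  zero_unit := hZero_unit
  zero_p := hZero_p
  prime_iu := hN'.prime_u
  prime_iu' := hN'.prime_u'
  compat := compat
  contr := contr u
  contr' := contr u'

section Loc

open Fermat.Agent.S40x.Node.SmoothEt Polynomial

variable {Q : R[X]} {c : R} [IsDomain (AdjoinRoot Q)]

/-- `NodeOver` for the etale lift `Loc Q c hc` of a node ring. -/
theorem nodeOver_loc (hQ : Q.Monic) (hc : Q.eval c ∈ maximalIdeal R)
    (hc' : IsUnit (Q.derivative.eval c)) [UniqueFactorizationMonoid (Loc Q c hc)]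
    [Algebra (Loc Q c hc) E0] [IsFractionRing (Loc Q c hc) E0]
    {p : ℕ} {u u' : R} (hN : IsNodeRing R p u u')
    (compat : ∀ x : R, algebraMap F0 E0 (algebraMap R F0 x) =
      algebraMap (Loc Q c hc) E0 (incl Q c hc x))
    (Oinf Ozero : ValuationSubring F0)
    (hInf_mem : ∀ x : R, algebraMap R F0 x ∈ Oinf)
    (hInf_unit : ∀ x : R, ¬ u ∣ x → (algebraMap R F0 x)⁻¹ ∈ Oinf)
    (hInf_p : (((p : ℕ) : F0))⁻¹ ∉ Oinf)
    (hZero_mem : ∀ x : R, algebraMap R F0 x ∈ Ozero)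
    (hZero_unit : ∀ x : R, ¬ u' ∣ x → (algebraMap R F0 x)⁻¹ ∈ Ozero)
    (hZero_p : (((p : ℕ) : F0))⁻¹ ∉ Ozero) :
    NodeOver F0 E0 (incl Q c hc) p u u' Oinf Ozero :=
  nodeOver_of_isNodeRing hN (isNodeRing_loc hQ hc hc' hN) compat
    (fun _ _ _ h => pow_dvd_of_incl_pow_dvd hQ hc h) Oinf Ozero hInf_mem hInf_unit hInf_p
    hZero_mem hZero_unit hZero_p

/-- the etale lift of a node ring is a UFD (instance needed by `nodeOver_loc`). -/
theorem ufm_loc (hQ : Q.Monic) (hc : Q.eval c ∈ maximalIdeal R)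
    (hc' : IsUnit (Q.derivative.eval c)) {p : ℕ} {u u' : R} (hN : IsNodeRing R p u u') :
    UniqueFactorizationMonoid (Loc Q c hc) :=
  Fermat.Agent.S40x.TameNode.ufm_of_isNodeRing (isNodeRing_loc hQ hc hc' hN)

end Loc

/-! ### Smooth points (one vertical prime `p`) -/

section Smooth

variable {S : Type*} [CommRing S] [IsDomain S] [IsNoetherianRing S] [IsLocalRing S]

/-- a smooth-point ring is a UFD. -/
theorem ufm_of_isSmoothPtRing {p : ℕ} {t : S} (h : IsSmoothPtRing S p t) :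
    UniqueFactorizationMonoid S :=
  Fermat.Agent.S40x.Edge.ufm_of_quotient_principal (p : S) h.natCast_mem_jacobson h.prime_p
    h.quotient_isPrincipal

/-- **one smooth point** = `Asm.smooth_slope_eq_zero` for a ring with the literal
`IsSmoothPtRing` (e.g. the etale lift `SmoothEt.isSmoothPtRing_loc`). -/
theorem smooth_slope_eq_zero_of_isSmoothPtRing [Algebra S E0] [IsFractionRing S E0]
    {p : ℕ} (hp : p ≠ 0) {t : S} (h : IsSmoothPtRing S p t) {ft : E0} (hft : ft ≠ 0)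
    (H : ∀ q : S, Prime q → ¬ Associated q (p : S) →
      ∀ f1 f2 : S, f2 ≠ 0 → ft * algebraMap S E0 f2 = algebraMap S E0 f1 →
      ∀ n1 n2 : ℕ, q ^ n1 ∣ f1 → ¬ q ^ (n1 + 1) ∣ f1 → q ^ n2 ∣ f2 → ¬ q ^ (n2 + 1) ∣ f2 →
        (p : ℤ) ∣ (n1 : ℤ) - n2)
    (n : ZMod p)
    (hsl : ∀ (A : ℤ) (ε : Sˣ) (g1 g2 : S), ¬ (p : S) ∣ g1 → ¬ (p : S) ∣ g2 →
      ft = algebraMap S E0 ε * algebraMap S E0 (p : S) ^ A *
        (algebraMap S E0 g1 / algebraMap S E0 g2) ^ p → n = 0) :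
    n = 0 := by
  have := ufm_of_isSmoothPtRing h
  exact Fermat.Agent.S40x.R2.Asm.smooth_slope_eq_zero hp h.prime_p hft H n hsl

end Smooth

end Fermat.Agent.S40x.AsmNodeEt
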