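import Mathlib

/-!
# UFD edge lemma (abstract, Mathlib only)  -- scratch leaf for S40 / R1-E (helper62)

* `(U)  ufd_of_prime_of_quotient_pid` : `R` Noetherian domain, `z` in the Jacobson radical, `z` prime,
  `R ⧸ (z)` a PID  ==>  `R` is a UFD  (Kaplansky criterion + Nakayama).
* `(P)  exists_factorization` : in a UFD, if every prime not associated to `z`, `z'` has multiplicity
  divisible by `p` in `f`, then `f = ε z^a z'^b g^p`, `g` prime to `z`, `z'`
  (`multiplicity_of_factorization`: `a`, `b` are the multiplicities).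
* `(E)  edge_ring`, `edge_frac` : the edge lemma: with `red : R → D` (a DVR, kernel `(z)`, `red z'` a
  uniformiser) and `f_i = z^(a_i) h_i`:
  `ord_D (red h1) - ord_D (red h2) ≡ mult_{z'} f1 - mult_{z'} f2  (mod p)`.
* `edge_main` : (U) + (E) packaged for a Noetherian domain with a surjection onto a DVR.
-/

set_option linter.unusedSectionVars false

namespace Fermat.Agent.S40x.EdgeUFD

open Ideal

section U

variable {R : Type*} [CommRing R] [IsDomain R] [IsNoetherianRing R]

/-- A prime ideal `q` not containing `z` (`z` in the Jacobson radical, `R ⧸ (z)` a PID) is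
principal. -/
theorem isPrincipal_of_notMem {z : R} (hzJ : z ∈ (⊥ : Ideal R).jacobson)
    (hpid : IsPrincipalIdealRing (R ⧸ Ideal.span {z}))
    (q : Ideal R) [hq : q.IsPrime] (hzq : z ∉ q) : q.IsPrincipal := by
  classical
  set π := Ideal.Quotient.mk (Ideal.span {z}) with hπ
  have hsurj : Function.Surjective π := Ideal.Quotient.mk_surjective
  obtain ⟨gbar, hgbar⟩ := (hpid.principal (q.map π)).principal
  -- `gbar ∈ q.map π`, so it is the image of some `g ∈ q`
  have hgmem : gbar ∈ q.map π := by rw [hgbar]; exact Submodule.mem_span_singleton_self gbar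
  obtain ⟨g, hgq, rfl⟩ := (Ideal.mem_map_iff_of_surjective π hsurj).mp hgmem
  refine ⟨g, ?_⟩
  apply le_antisymm
  · -- Nakayama
    have hfg : (q : Submodule R R).FG := IsNoetherian.noetherian q
    have hJ : Ideal.span {z} ≤ (⊥ : Ideal R).jacobson := by
      rw [Ideal.span_le]; intro x hx; rw [Set.mem_singleton_iff.mp hx]; exact hzJ
    refine Submodule.le_of_le_smul_of_le_jacobson_bot (I := Ideal.span {z})
      (N := Submodule.span R {g}) (N' := q) hfg hJ ?_
    intro h hh
    have hπh : π h ∈ q.map π := Ideal.mem_map_of_mem π hh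
    rw [hgbar] at hπh
    obtain ⟨abar, habar⟩ := Submodule.mem_span_singleton.mp hπh
    obtain ⟨a, rfl⟩ := hsurj abar
    -- `h - a g ∈ (z)`
    have hker : h - a * g ∈ Ideal.span {z} := by
      rw [← Ideal.Quotient.eq_zero_iff_mem, map_sub, map_mul]
      rw [smul_eq_mul] at habar
      rw [← habar, sub_self]
    obtain ⟨h1, hh1⟩ := Ideal.mem_span_singleton.mp hker
    have hzh1 : z * h1 ∈ q := by
      rw [← hh1]; exact q.sub_mem hh (q.mul_mem_left a hgq)
    have hh1q : h1 ∈ q := (hq.mem_or_mem hzh1).resolve_left hzq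
    have : h = a * g + z * h1 := by rw [← hh1]; ring
    rw [this]
    refine Submodule.add_mem_sup ?_ ?_
    · exact Submodule.mem_span_singleton.mpr ⟨a, rfl⟩
    · have : z * h1 = z • h1 := rfl
      rw [this]
      exact Submodule.smul_mem_smul (Ideal.mem_span_singleton_self z) hh1q
  · rw [Ideal.submodule_span_eq, Ideal.span_le]
    intro x hx; rw [Set.mem_singleton_iff.mp hx]; exact hgq

/-- (U) Kaplansky + Nakayama. -/
theorem ufd_of_prime_of_quotient_pid {z : R} (hzJ : z ∈ (⊥ : Ideal R).jacobson) (hz : Prime z)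
    (hpid : IsPrincipalIdealRing (R ⧸ Ideal.span {z})) : UniqueFactorizationMonoid R := by
  rw [UniqueFactorizationMonoid.iff_exists_prime_mem_of_isPrime]
  intro q hq0 hq
  by_cases hzq : z ∈ q
  · exact ⟨z, hzq, hz⟩
  · obtain ⟨g, hg⟩ := (isPrincipal_of_notMem hzJ hpid q hzq).principal
    have hg' : q = Ideal.span {g} := hg
    have hg0 : g ≠ 0 := by
      rintro rfl
      apply hq0
      rw [hg']; simp
    refine ⟨g, ?_, ?_⟩
    · rw [hg']; exact Ideal.mem_span_singleton_self g
    · rw [← Ideal.span_singleton_prime hg0, ← hg']; exact hq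

end U

section P

variable {R : Type*} [CommRing R] [IsDomain R] [UniqueFactorizationMonoid R]

/-- a prime `q'` not associated to the prime `q` has multiplicity `0` in `q ^ m`. -/
theorem multiplicity_pow_eq_zero_of_not_associated {q q' : R} (hq : Prime q) (hq' : Prime q')
    (h : ¬ Associated q' q) (m : ℕ) : multiplicity q' (q ^ m) = 0 := by
  rw [multiplicity_eq_zero]
  intro hdvd
  exact h (hq'.associated_of_dvd hq (hq'.dvd_of_dvd_pow hdvd))

/-- multiplicity of a prime in a product, in a UFD, for nonzero factors. -/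
theorem multiplicity_mul' {q a b : R} (hq : Prime q) (ha : a ≠ 0) (hb : b ≠ 0) :
    multiplicity q (a * b) = multiplicity q a + multiplicity q b :=
  multiplicity_mul hq (FiniteMultiplicity.of_not_isUnit hq.not_isUnit (mul_ne_zero ha hb))

/-- (P) relative `p`-th power lemma: if every prime not associated to `z`, `z'` has multiplicity
divisible by `p` in `f`, then `f = ε z^a z'^b g^p` with `g` prime to `z`, `z'`. -/
theorem exists_factorization {z z' : R} (hz : Prime z) (hz' : Prime z') (p : ℕ) :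
    ∀ f : R, f ≠ 0 →
      (∀ q : R, Prime q → ¬ Associated q z → ¬ Associated q z' → p ∣ multiplicity q f) →
      ∃ (ε : Rˣ) (a b : ℕ) (g : R), f = ε * z ^ a * z' ^ b * g ^ p ∧ ¬ z ∣ g ∧ ¬ z' ∣ g := by
  intro f
  induction f using (wellFounded_dvdNotUnit (α := R)).induction with
  | _ f ih =>
  intro hf hp
  by_cases hu : IsUnit f
  · refine ⟨hu.unit, 0, 0, 1, by simp, ?_, ?_⟩
    · exact fun h => hz.not_isUnit (isUnit_of_dvd_one h)
    · exact fun h => hz'.not_isUnit (isUnit_of_dvd_one h)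
  obtain ⟨q, hqirr, hqf⟩ := WfDvdMonoid.exists_irreducible_factor hu hf
  have hq : Prime q := UniqueFactorizationMonoid.irreducible_iff_prime.mp hqirr
  -- peel off one factor `w ∈ {z, z'}` associated to `q`
  by_cases hqz : Associated q z
  · -- `z ∣ f`
    have hzf : z ∣ f := hqz.dvd_iff_dvd_left.mp hqf
    obtain ⟨f', rfl⟩ := hzf
    have hf' : f' ≠ 0 := right_ne_zero_of_mul hf
    have hlt : DvdNotUnit f' (z * f') := ⟨hf', z, hz.not_isUnit, mul_comm z f'⟩
    have hp' : ∀ q : R, Prime q → ¬ Associated q z → ¬ Associated q z' →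
        p ∣ multiplicity q f' := by
      intro q' hq' h1 h2
      have := hp q' hq' h1 h2
      rw [multiplicity_mul' hq' hz.ne_zero hf'] at this
      have h0 : multiplicity q' z = 0 := by
        simpa using multiplicity_pow_eq_zero_of_not_associated hz hq' h1 1
      rwa [h0, zero_add] at this
    obtain ⟨ε, a, b, g, hfg, hg1, hg2⟩ := ih f' hlt hf' hp'
    refine ⟨ε, a + 1, b, g, ?_, hg1, hg2⟩
    rw [hfg]; ring
  by_cases hqz' : Associated q z'
  · have hzf : z' ∣ f := hqz'.dvd_iff_dvd_left.mp hqf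
    obtain ⟨f', rfl⟩ := hzf
    have hf' : f' ≠ 0 := right_ne_zero_of_mul hf
    have hlt : DvdNotUnit f' (z' * f') := ⟨hf', z', hz'.not_isUnit, mul_comm z' f'⟩
    have hp' : ∀ q : R, Prime q → ¬ Associated q z → ¬ Associated q z' →
        p ∣ multiplicity q f' := by
      intro q' hq' h1 h2
      have := hp q' hq' h1 h2
      rw [multiplicity_mul' hq' hz'.ne_zero hf'] at this
      have h0 : multiplicity q' z' = 0 := by
        simpa using multiplicity_pow_eq_zero_of_not_associated hz' hq' h2 1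
      rwa [h0, zero_add] at this
    obtain ⟨ε, a, b, g, hfg, hg1, hg2⟩ := ih f' hlt hf' hp'
    refine ⟨ε, a, b + 1, g, ?_, hg1, hg2⟩
    rw [hfg]; ring
  -- horizontal prime `q`
  have hfin : FiniteMultiplicity q f := FiniteMultiplicity.of_not_isUnit hq.not_isUnit hf
  obtain ⟨k, hk⟩ := hp q hq hqz hqz'
  obtain ⟨f', hff', hqf'⟩ := hfin.exists_eq_pow_mul_and_not_dvd
  have hmpos : 0 < multiplicity q f := Nat.pos_of_ne_zero (multiplicity_ne_zero.mpr hqf)
  have hf' : f' ≠ 0 := by
    rintro rfl; exact hqf' (dvd_zero q)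
  have hqm : ¬ IsUnit (q ^ multiplicity q f) := by
    rw [isUnit_pow_iff hmpos.ne']; exact hq.not_isUnit
  have hlt : DvdNotUnit f' f := ⟨hf', q ^ multiplicity q f, hqm, by rw [mul_comm]; exact hff'⟩
  have hp' : ∀ q' : R, Prime q' → ¬ Associated q' z → ¬ Associated q' z' →
      p ∣ multiplicity q' f' := by
    intro q' hq' h1 h2
    by_cases hqq : Associated q' q
    · rw [multiplicity_eq_of_associated_left hqq.symm, multiplicity_eq_zero.mpr hqf']
      exact dvd_zero p
    · have := hp q' hq' h1 h2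
      rw [hff', multiplicity_mul' hq' (pow_ne_zero _ hq.ne_zero) hf',
        multiplicity_pow_eq_zero_of_not_associated hq hq' hqq, zero_add] at this
      exact this
  obtain ⟨ε, a, b, g, hfg, hg1, hg2⟩ := ih f' hlt hf' hp'
  refine ⟨ε, a, b, q ^ k * g, ?_, ?_, ?_⟩
  · rw [hff', hk, hfg, mul_pow, ← pow_mul, mul_comm k p]; ring
  · intro h
    rcases hz.dvd_or_dvd h with h | h
    · exact hqz (hz.associated_of_dvd hq (hz.dvd_of_dvd_pow h)).symm
    · exact hg1 h
  · intro h
    rcases hz'.dvd_or_dvd h with h | h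
    · exact hqz' (hz'.associated_of_dvd hq (hz'.dvd_of_dvd_pow h)).symm
    · exact hg2 h

end P

section E

variable {R : Type*} [CommRing R] [IsDomain R] [UniqueFactorizationMonoid R]
variable {D : Type*} [CommRing D] [IsDomain D] [IsDiscreteValuationRing D]

open IsDiscreteValuationRing

/-- In the normal form `f = ε z^a z'^b g^p` the exponents are the multiplicities. -/
theorem multiplicity_of_factorization {z z' : R} (hz : Prime z) (hz' : Prime z')
    (hzz' : ¬ Associated z z') {p : ℕ} {f : R} {ε : Rˣ} {a b : ℕ} {g : R}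
    (hf : f = ε * z ^ a * z' ^ b * g ^ p) (hg : ¬ z ∣ g) (hg' : ¬ z' ∣ g) :
    multiplicity z f = a ∧ multiplicity z' f = b := by
  have hg0 : g ≠ 0 := by rintro rfl; exact hg (dvd_zero z)
  have hgp0 : g ^ p ≠ 0 := pow_ne_zero _ hg0
  have hε0 : (ε : R) ≠ 0 := ε.ne_zero
  have hza0 : z ^ a ≠ 0 := pow_ne_zero _ hz.ne_zero
  have hzb0 : z' ^ b ≠ 0 := pow_ne_zero _ hz'.ne_zero
  have h1 : ∀ {w : R}, Prime w → multiplicity w (ε : R) = 0 := fun hw =>
    multiplicity_eq_zero.mpr fun h => hw.not_isUnit (isUnit_of_dvd_unit h ε.isUnit)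
  have h2 : ∀ {w : R}, Prime w → ¬ w ∣ g → multiplicity w (g ^ p) = 0 := fun hw hwg =>
    multiplicity_eq_zero.mpr fun h => hwg (hw.dvd_of_dvd_pow h)
  constructor
  · rw [hf, multiplicity_mul' hz (mul_ne_zero (mul_ne_zero hε0 hza0) hzb0) hgp0,
      multiplicity_mul' hz (mul_ne_zero hε0 hza0) hzb0, multiplicity_mul' hz hε0 hza0,
      h1 hz, h2 hz hg, multiplicity_pow_self_of_prime hz,
      multiplicity_pow_eq_zero_of_not_associated hz' hz hzz']
    simp
  · rw [hf, multiplicity_mul' hz' (mul_ne_zero (mul_ne_zero hε0 hza0) hzb0) hgp0,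
      multiplicity_mul' hz' (mul_ne_zero hε0 hza0) hzb0, multiplicity_mul' hz' hε0 hza0,
      h1 hz', h2 hz' hg', multiplicity_pow_self_of_prime hz',
      multiplicity_pow_eq_zero_of_not_associated hz hz' (fun h => hzz' h.symm)]
    simp

/-- (E) EDGE LEMMA, ring form. `red : R → D` is the reduction modulo `z` onto (a subring of) a DVR
`D` in which `z'` becomes a uniformiser. If all horizontal prime multiplicities of `f` are
divisible by `p`, then `ord_D (red (f / z^a)) = b + p n`, `a = mult_z f`, `b = mult_{z'} f`. -/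
theorem edge_ring {z z' : R} (hz : Prime z) (hz' : Prime z') (hzz' : ¬ Associated z z')
    (red : R →+* D) (hker : ∀ x, red x = 0 → z ∣ x) (hunif : Irreducible (red z'))
    (p : ℕ) {f : R} (hf : f ≠ 0)
    (hp : ∀ q : R, Prime q → ¬ Associated q z → ¬ Associated q z' → p ∣ multiplicity q f)
    {h : R} (hfh : f = z ^ multiplicity z f * h) :
    ∃ n : ℕ, addVal D (red h) = ((multiplicity z' f + p * n : ℕ) : ℕ∞) := by
  obtain ⟨ε, a, b, g, hfg, hg, hg'⟩ := exists_factorization hz hz' p f hf hp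
  obtain ⟨ha, hb⟩ := multiplicity_of_factorization hz hz' hzz' hfg hg hg'
  have hh : h = ε * z' ^ b * g ^ p := by
    have h0 : z ^ a ≠ 0 := pow_ne_zero _ hz.ne_zero
    apply mul_left_cancel₀ h0
    rw [ha] at hfh
    rw [← hfh, hfg]; ring
  have hredg : red g ≠ 0 := fun h0 => hg (hker g h0)
  obtain ⟨n, hn⟩ := ENat.ne_top_iff_exists.mp (fun ht => hredg (addVal_eq_top_iff.mp ht))
  refine ⟨n, ?_⟩
  have hredh : red h = red (ε : R) * red z' ^ b * red g ^ p := by
    rw [hh, RingHom.map_mul, RingHom.map_mul, RingHom.map_pow, RingHom.map_pow]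
  have hu : addVal D (red (ε : R)) = 0 := addVal_eq_zero_of_unit (Units.map red.toMonoidHom ε)
  rw [hredh, addVal_mul, addVal_mul, addVal_pow, addVal_pow, addVal_uniformizer hunif, ← hn, hb,
    hu]
  push_cast
  simp

/-- (E) EDGE LEMMA, fraction form (`f = f1 / f2`): if `p` divides `mult_q f1 - mult_q f2` for all
horizontal primes `q`, then with `f_i = z^(a_i) h_i`, `a_i = mult_z f_i`:
`ord (red h1) - ord (red h2) ≡ mult_{z'} f1 - mult_{z'} f2  (mod p)`. -/
theorem edge_frac {z z' : R} (hz : Prime z) (hz' : Prime z') (hzz' : ¬ Associated z z')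
    (red : R →+* D) (hker : ∀ x, red x = 0 → z ∣ x) (hunif : Irreducible (red z'))
    {p : ℕ} (hp0 : 0 < p) {f1 f2 : R} (hf1 : f1 ≠ 0) (hf2 : f2 ≠ 0)
    (hp : ∀ q : R, Prime q → ¬ Associated q z → ¬ Associated q z' →
      (p : ℤ) ∣ (multiplicity q f1 : ℤ) - multiplicity q f2)
    {h1 h2 : R} (hfh1 : f1 = z ^ multiplicity z f1 * h1)
    (hfh2 : f2 = z ^ multiplicity z f2 * h2) :
    ∃ n1 n2 : ℕ, addVal D (red h1) = n1 ∧ addVal D (red h2) = n2 ∧
      ((n1 : ℤ) - n2) ≡ ((multiplicity z' f1 : ℤ) - multiplicity z' f2) [ZMOD p] := by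
  have hfin1 : FiniteMultiplicity z f1 := FiniteMultiplicity.of_not_isUnit hz.not_isUnit hf1
  have hfin2 : FiniteMultiplicity z f2 := FiniteMultiplicity.of_not_isUnit hz.not_isUnit hf2
  have hzh : ∀ {f h : R}, f ≠ 0 → f = z ^ multiplicity z f * h → ¬ z ∣ h := by
    intro f h hf hfh hdvd
    obtain ⟨c, rfl⟩ := hdvd
    have hfin : FiniteMultiplicity z f := FiniteMultiplicity.of_not_isUnit hz.not_isUnit hf
    have : z ^ (multiplicity z f + 1) ∣ f := ⟨c, by rw [pow_succ]; rw [mul_assoc]; exact hfh⟩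
    exact hfin.not_pow_dvd_of_multiplicity_lt (Nat.lt_succ_self _) this
  have hzh1 := hzh hf1 hfh1
  have hzh2 := hzh hf2 hfh2
  have hred1 : red h1 ≠ 0 := fun h0 => hzh1 (hker h1 h0)
  have hred2 : red h2 ≠ 0 := fun h0 => hzh2 (hker h2 h0)
  obtain ⟨n1, hn1⟩ := ENat.ne_top_iff_exists.mp (fun ht => hred1 (addVal_eq_top_iff.mp ht))
  obtain ⟨n2, hn2⟩ := ENat.ne_top_iff_exists.mp (fun ht => hred2 (addVal_eq_top_iff.mp ht))
  refine ⟨n1, n2, hn1.symm, hn2.symm, ?_⟩
  -- apply the ring form to `F = f1 * f2 ^ (p - 1)`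
  obtain ⟨p', rfl⟩ : ∃ p', p = p' + 1 := ⟨p - 1, by omega⟩
  set F := f1 * f2 ^ p' with hF
  have hF0 : F ≠ 0 := mul_ne_zero hf1 (pow_ne_zero _ hf2)
  have hmulF : ∀ w : R, Prime w → multiplicity w F = multiplicity w f1 + p' * multiplicity w f2 := by
    intro w hw
    rw [hF, multiplicity_mul' hw hf1 (pow_ne_zero _ hf2),
      (FiniteMultiplicity.of_not_isUnit hw.not_isUnit hf2).multiplicity_pow hw]
  have hpF : ∀ q : R, Prime q → ¬ Associated q z → ¬ Associated q z' →
      (p' + 1) ∣ multiplicity q F := by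
    intro q hq h1 h2
    have := hp q hq h1 h2
    rw [hmulF q hq]
    have hcast : ((p' + 1 : ℕ) : ℤ) ∣ ((multiplicity q f1 + p' * multiplicity q f2 : ℕ) : ℤ) := by
      obtain ⟨c, hc⟩ := this
      refine ⟨c + multiplicity q f2, ?_⟩
      push_cast at hc ⊢
      linarith [hc]
    exact_mod_cast hcast
  have hFh : F = z ^ multiplicity z F * (h1 * h2 ^ p') := by
    rw [hmulF z hz, hF]
    conv_lhs => rw [hfh1, hfh2]
    rw [pow_add, mul_pow, ← pow_mul, mul_comm (multiplicity z f2) p']; ring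
  obtain ⟨n, hn⟩ := edge_ring hz hz' hzz' red hker hunif (p' + 1) hF0 hpF hFh
  rw [RingHom.map_mul, RingHom.map_pow, addVal_mul, addVal_pow, ← hn1, ← hn2, hmulF z' hz'] at hn
  have hn' : (n1 + p' * n2 : ℕ) = multiplicity z' f1 + p' * multiplicity z' f2 + (p' + 1) * n := by
    have : ((n1 + p' * n2 : ℕ) : ℕ∞) =
        ((multiplicity z' f1 + p' * multiplicity z' f2 + (p' + 1) * n : ℕ) : ℕ∞) := by
      rw [← hn]; push_cast; simp
    exact_mod_cast this
  have hz : ((n1 : ℤ) - n2) - ((multiplicity z' f1 : ℤ) - multiplicity z' f2) =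
      ((p' + 1 : ℕ) : ℤ) * ((n : ℤ) + multiplicity z' f2 - n2) := by
    have := congrArg (fun x : ℕ => (x : ℤ)) hn'
    push_cast at this ⊢
    linarith [this]
  refine Int.modEq_iff_dvd.mpr ⟨-((n : ℤ) + multiplicity z' f2 - n2), ?_⟩
  rw [mul_neg, ← hz]; ring

end E

section Main

variable {R : Type*} [CommRing R] [IsDomain R] [IsNoetherianRing R]
variable {D : Type*} [CommRing D] [IsDomain D] [IsDiscreteValuationRing D]

open IsDiscreteValuationRing

/-- `z` is prime as soon as `(z)` is the kernel of a map onto a domain and `z ≠ 0`. -/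
theorem prime_of_ker_eq {z : R} (hz0 : z ≠ 0) (red : R →+* D)
    (hker : RingHom.ker red = Ideal.span {z}) : Prime z := by
  rw [← Ideal.span_singleton_prime hz0, ← hker]
  exact RingHom.ker_isPrime red

/-- (U) in the form used by the edge lemma: a Noetherian domain surjecting onto a PID with
principal kernel `(z)`, `z` in the Jacobson radical, is a UFD. -/
theorem ufd_of_red {D' : Type*} [CommRing D'] [IsDomain D'] [IsPrincipalIdealRing D']
    {z : R} (hz0 : z ≠ 0) (hzJ : z ∈ (⊥ : Ideal R).jacobson) (red : R →+* D')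
    (hsurj : Function.Surjective red) (hker : RingHom.ker red = Ideal.span {z}) :
    UniqueFactorizationMonoid R := by
  have hz : Prime z := by
    rw [← Ideal.span_singleton_prime hz0, ← hker]
    exact RingHom.ker_isPrime red
  refine ufd_of_prime_of_quotient_pid hzJ hz ?_
  -- `R ⧸ (z) ≃ D'`
  have e : (R ⧸ RingHom.ker red) ≃+* D' := RingHom.quotientKerEquivOfSurjective hsurj
  have e' : (R ⧸ Ideal.span {z}) ≃+* D' := (Ideal.quotEquivOfEq hker.symm).trans e
  exact IsPrincipalIdealRing.of_surjective e'.symm.toRingHom e'.symm.surjective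

/-- EDGE LEMMA, packaged. `R` Noetherian domain, `z ≠ 0` in the Jacobson radical,
`red : R → D` onto a DVR with kernel `(z)`, `z'` a prime not associated to `z` whose image is a
uniformiser of `D`. For `f1, f2 ≠ 0` such that `p ∣ mult_q f1 - mult_q f2` for every prime `q` not
associated to `z`, `z'` (horizontal primes), and `f_i = z^(mult_z f_i) h_i`:
`ord_D (red h1) - ord_D (red h2) ≡ mult_{z'} f1 - mult_{z'} f2 (mod p)`. -/
theorem edge_main {z z' : R} (hz0 : z ≠ 0) (hzJ : z ∈ (⊥ : Ideal R).jacobson)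
    (red : R →+* D) (hsurj : Function.Surjective red)
    (hker : RingHom.ker red = Ideal.span {z})
    (hz' : Prime z') (hzz' : ¬ Associated z z') (hunif : Irreducible (red z'))
    {p : ℕ} (hp0 : 0 < p) {f1 f2 : R} (hf1 : f1 ≠ 0) (hf2 : f2 ≠ 0)
    (hp : ∀ q : R, Prime q → ¬ Associated q z → ¬ Associated q z' →
      (p : ℤ) ∣ (multiplicity q f1 : ℤ) - multiplicity q f2)
    {h1 h2 : R} (hfh1 : f1 = z ^ multiplicity z f1 * h1)
    (hfh2 : f2 = z ^ multiplicity z f2 * h2) :
    ∃ n1 n2 : ℕ, addVal D (red h1) = n1 ∧ addVal D (red h2) = n2 ∧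
      ((n1 : ℤ) - n2) ≡ ((multiplicity z' f1 : ℤ) - multiplicity z' f2) [ZMOD p] := by
  have : UniqueFactorizationMonoid R := ufd_of_red hz0 hzJ red hsurj hker
  have hz : Prime z := prime_of_ker_eq hz0 red hker
  have hker' : ∀ x, red x = 0 → z ∣ x := by
    intro x hx
    have : x ∈ RingHom.ker red := hx
    rw [hker] at this
    exact Ideal.mem_span_singleton.mp this
  exact edge_frac hz hz' hzz' red hker' hunif hp0 hf1 hf2 hp hfh1 hfh2

end Main

section Val

open IsDedekindDomain WithZero IsDiscreteValuationRing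

variable {D : Type*} [CommRing D] [IsDomain D] [IsDiscreteValuationRing D]
variable (κ : Type*) [Field κ] [Algebra D κ] [IsFractionRing D κ]

/-- the `ℤ`-valued order on the fraction field `κ` of the DVR `D`; same shape as the Prelude's
`AlgebraicCurve.Place.ord` (`- log` of the adic valuation of the maximal ideal). -/
noncomputable def ordK (x : κ) : ℤ :=
  -(WithZero.log ((IsDiscreteValuationRing.maximalIdeal D).valuation κ x))

/-- on `D ∖ {0}` the order is `addVal`. -/
theorem ordK_algebraMap {d : D} {n : ℕ} (hn : addVal D d = n) :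
    ordK (D := D) κ (algebraMap D κ d) = n := by
  obtain ⟨ϖ, hϖ⟩ := IsDiscreteValuationRing.exists_irreducible D
  have hd0 : d ≠ 0 := by
    rintro rfl
    rw [addVal_zero] at hn
    exact ENat.top_ne_natCast n hn
  obtain ⟨m, u, hu⟩ := IsDiscreteValuationRing.eq_unit_mul_pow_irreducible hd0 hϖ
  have hm : addVal D d = m := addVal_def d u hϖ m hu
  have hmn : m = n := by
    have : (m : ℕ∞) = n := hm.symm.trans hn
    exact_mod_cast this
  subst hmn
  set v := IsDiscreteValuationRing.maximalIdeal D with hv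
  have hvϖ : v.asIdeal = Ideal.span {ϖ} := hϖ.maximalIdeal_eq
  have h1 : v.intValuation ϖ = exp (-1 : ℤ) := v.intValuation_singleton hϖ.ne_zero hvϖ
  have h2 : v.intValuation (u : D) = 1 := by
    rw [HeightOneSpectrum.intValuation_eq_one_iff]
    intro hmem
    exact (IsLocalRing.mem_maximalIdeal _).mp hmem u.isUnit
  unfold ordK
  rw [HeightOneSpectrum.valuation_of_algebraMap, hu, map_mul, map_pow, h1, h2, one_mul,
    ← WithZero.exp_nsmul, WithZero.log_exp]
  simp

theorem ordK_div {x y : κ} (hx : x ≠ 0) (hy : y ≠ 0) :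
    ordK (D := D) κ (x / y) = ordK (D := D) κ x - ordK (D := D) κ y := by
  unfold ordK
  have hx' : (IsDiscreteValuationRing.maximalIdeal D).valuation κ x ≠ 0 :=
    (Valuation.ne_zero_iff _).mpr hx
  have hy' : (IsDiscreteValuationRing.maximalIdeal D).valuation κ y ≠ 0 :=
    (Valuation.ne_zero_iff _).mpr hy
  rw [map_div₀, WithZero.log_div hx' hy']
  ring

/-- EDGE LEMMA, order-valued consumer form: the reduction of `f / z^a` (`f = f1 / f2`,
`a = ord_z f`), computed in the fraction field `κ` of the DVR `D = R / (z)`, has order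
`≡ ord_{z'} f (mod p)` at the closed point of `D`. -/
theorem edge_val {R : Type*} [CommRing R] [IsDomain R] [IsNoetherianRing R]
    {z z' : R} (hz0 : z ≠ 0) (hzJ : z ∈ (⊥ : Ideal R).jacobson)
    (red : R →+* D) (hsurj : Function.Surjective red)
    (hker : RingHom.ker red = Ideal.span {z})
    (hz' : Prime z') (hzz' : ¬ Associated z z') (hunif : Irreducible (red z'))
    {p : ℕ} (hp0 : 0 < p) {f1 f2 : R} (hf1 : f1 ≠ 0) (hf2 : f2 ≠ 0)
    (hp : ∀ q : R, Prime q → ¬ Associated q z → ¬ Associated q z' →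
      (p : ℤ) ∣ (multiplicity q f1 : ℤ) - multiplicity q f2)
    {h1 h2 : R} (hfh1 : f1 = z ^ multiplicity z f1 * h1)
    (hfh2 : f2 = z ^ multiplicity z f2 * h2) :
    ordK (D := D) κ (algebraMap D κ (red h1) / algebraMap D κ (red h2)) ≡
      ((multiplicity z' f1 : ℤ) - multiplicity z' f2) [ZMOD p] := by
  obtain ⟨n1, n2, hn1, hn2, hcong⟩ :=
    edge_main hz0 hzJ red hsurj hker hz' hzz' hunif hp0 hf1 hf2 hp hfh1 hfh2
  have hne : ∀ {d : D} {n : ℕ}, addVal D d = n → algebraMap D κ d ≠ 0 := by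
    intro d n hn h0
    have : d = 0 := (IsFractionRing.injective D κ) (by rw [h0, map_zero])
    rw [this, addVal_zero] at hn
    exact ENat.top_ne_natCast n hn
  rw [ordK_div κ (hne hn1) (hne hn2), ordK_algebraMap κ hn1, ordK_algebraMap κ hn2]
  exact hcong

end Val

end Fermat.Agent.S40x.EdgeUFD
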