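import Fermat.Agent.S40x.EdgeB.PrimePlace
import Fermat.Agent.S40x.R2.Transitive

/-!
# Order function of a prime element of a UFD, in the shape of `R2/Asm/Core` (helper62)

Adapter between the node-ring literals of block R1 (`IsNodeRing`, `IsSmoothPtRing`, the etale lifts
`Node/SmoothEt`, `Node/EtaleLift`) and the hypotheses of `Asm.node_slope_eq`, `Asm.c3_core_pair`
(deliverable [ET]/[N] of `S44-IFACE-C3-ASM`).

`R` a UFD, `F = Frac R`, `q` a prime element.

* `ordAt hq : F → ℤ`, the `q`-adic order; `ordAt_div` (`= mult_q f1 - mult_q f2`), `ordAt_self = 1`,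
  `ordAt_of_not_dvd = 0`;
* `isOrd hq : Transitive.IsOrd (PrimePlace.valuationSubring hq) (ordAt hq)`;
* `eq_valuationSubring` : a valuation subring `O` of `F` with `R ⊆ O`, `R ∖ qR ⊆ Oˣ`, `q⁻¹ ∉ O`
  (`IsBranch`, `(v1)+(v0)`) IS `R_(q)`;
* lying over: for `R → R'` (UFDs, `F → F'`), `q' = i q` prime, with the CONTRACTION
  `q' ^ n ∣ i x → q ^ n ∣ x`: `ordAt hq' (algebraMap F F' e) = ordAt hq e`
  and `algebraMap F F' e ∈ R'_(q') ↔ e ∈ R_(q)` (`hvinf`, `hWinf` of `c3_core_pair`).
-/

set_option autoImplicit false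
set_option linter.unusedSectionVars false

noncomputable section

namespace Fermat.Agent.S40x.PrimeOrd

open Fermat.Agent.S40x.PrimePlace Fermat.Agent.S40x.R2.Transitive

section One

variable {R : Type*} [CommRing R] [IsDomain R] [UniqueFactorizationMonoid R]
variable {F : Type*} [Field F] [Algebra R F] [IsFractionRing R F]

local notation "ι" => algebraMap R F

theorem iota_ne_zero {x : R} (hx : x ≠ 0) : ι x ≠ 0 := fun h0 =>
  hx (iota_injective (F := F) (by rw [h0, map_zero]))

/-- multiplicity of a prime is additive. -/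
theorem mult_mul {q a b : R} (hq : Prime q) (ha : a ≠ 0) (hb : b ≠ 0) :
    multiplicity q (a * b) = multiplicity q a + multiplicity q b :=
  multiplicity_mul hq (FiniteMultiplicity.of_not_isUnit hq.not_isUnit (mul_ne_zero ha hb))

/-- the `q`-adic order on `F = Frac R` (junk value `0` at `0`). -/
def ordAt {q : R} (_hq : Prime q) (x : F) : ℤ :=
  (multiplicity q (IsFractionRing.num R x) : ℤ) - multiplicity q (IsFractionRing.den R x : R)

variable {q : R} (hq : Prime q)

/-- `ordAt (f1 / f2) = mult_q f1 - mult_q f2` for ANY representation. -/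
theorem ordAt_of_mul_eq {x : F} {f1 f2 : R} (hf1 : f1 ≠ 0) (hf2 : f2 ≠ 0)
    (h : x * ι f2 = ι f1) :
    ordAt (F := F) hq x = (multiplicity q f1 : ℤ) - multiplicity q f2 := by
  have hd0 : (IsFractionRing.den R x : R) ≠ 0 := nonZeroDivisors.ne_zero (IsFractionRing.den R x).2
  have hx0 : x ≠ 0 := by
    rintro rfl
    rw [zero_mul] at h
    exact iota_ne_zero hf1 h.symm
  have hnd : x * ι (IsFractionRing.den R x : R) = ι (IsFractionRing.num R x) := by
    have := IsFractionRing.mk'_num_den R x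
    rw [IsLocalization.mk'_eq_iff_eq_mul] at this
    exact this.symm
  have hn0 : IsFractionRing.num R x ≠ 0 := by
    intro h0
    rw [h0, map_zero] at hnd
    exact (mul_ne_zero hx0 (iota_ne_zero hd0)) hnd
  -- cross-multiply
  have hcross : IsFractionRing.num R x * f2 = f1 * (IsFractionRing.den R x : R) := by
    apply iota_injective (F := F)
    rw [map_mul, map_mul, ← hnd, ← h]
    ring
  have h1 := mult_mul hq hn0 hf2
  have h2 := mult_mul hq hf1 hd0
  rw [hcross] at h1
  unfold ordAt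
  have : (multiplicity q (IsFractionRing.num R x) : ℤ) + multiplicity q f2 =
      (multiplicity q f1 : ℤ) + multiplicity q (IsFractionRing.den R x : R) := by
    have := h1.symm.trans h2
    exact_mod_cast this
  linarith

theorem ordAt_div {f1 f2 : R} (hf1 : f1 ≠ 0) (hf2 : f2 ≠ 0) :
    ordAt (F := F) hq (ι f1 / ι f2) = (multiplicity q f1 : ℤ) - multiplicity q f2 :=
  ordAt_of_mul_eq hq hf1 hf2 (div_mul_cancel₀ _ (iota_ne_zero hf2))

theorem ordAt_algebraMap {r : R} (hr : r ≠ 0) :
    ordAt (F := F) hq (ι r) = (multiplicity q r : ℤ) := by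
  have := ordAt_of_mul_eq (F := F) hq (x := ι r) hr one_ne_zero (by rw [map_one, mul_one])
  have h1 : multiplicity q (1 : R) = 0 :=
    multiplicity_eq_zero.mpr (fun h => hq.not_isUnit (isUnit_of_dvd_one h))
  rw [this, h1]
  simp

/-- `hinf_u` of `Asm.node_slope_eq`. -/
theorem ordAt_self : ordAt (F := F) hq (ι q) = 1 := by
  rw [ordAt_algebraMap hq hq.ne_zero, multiplicity_self]
  rfl

/-- `hinf_0` of `Asm.node_slope_eq`. -/
theorem ordAt_of_not_dvd {r : R} (hr : ¬ q ∣ r) : ordAt (F := F) hq (ι r) = 0 := by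
  have hr0 : r ≠ 0 := fun h0 => hr (h0 ▸ dvd_zero q)
  rw [ordAt_algebraMap hq hr0, multiplicity_eq_zero.mpr hr]
  rfl

theorem ordAt_mul {x y : F} (hx : x ≠ 0) (hy : y ≠ 0) :
    ordAt (F := F) hq (x * y) = ordAt (F := F) hq x + ordAt (F := F) hq y := by
  obtain ⟨a, b, hb, rfl⟩ := IsFractionRing.div_surjective (A := R) x
  obtain ⟨c, d, hd, rfl⟩ := IsFractionRing.div_surjective (A := R) y
  have hb0 : b ≠ 0 := nonZeroDivisors.ne_zero hb
  have hd0 : d ≠ 0 := nonZeroDivisors.ne_zero hd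
  have ha0 : a ≠ 0 := by rintro rfl; simp at hx
  have hc0 : c ≠ 0 := by rintro rfl; simp at hy
  have hprod : ι a / ι b * (ι c / ι d) = ι (a * c) / ι (b * d) := by
    rw [map_mul, map_mul]
    have := iota_ne_zero (F := F) hb0
    have := iota_ne_zero (F := F) hd0
    field_simp
  rw [hprod, ordAt_div hq (mul_ne_zero ha0 hc0) (mul_ne_zero hb0 hd0), ordAt_div hq ha0 hb0,
    ordAt_div hq hc0 hd0, mult_mul hq ha0 hc0, mult_mul hq hb0 hd0]
  push_cast
  ring

theorem ordAt_nonneg_iff {x : F} (hx : x ≠ 0) :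
    0 ≤ ordAt (F := F) hq x ↔ x ∈ valuationSubring (F := F) hq := by
  constructor
  · intro h
    obtain ⟨i, j, a, b, hqa, hqb, hab⟩ := exists_pow_div (F := F) hq hx
    have ha0 : a ≠ 0 := fun h0 => hqa (h0 ▸ dvd_zero q)
    have hb0 : b ≠ 0 := fun h0 => hqb (h0 ▸ dvd_zero q)
    have hqi : q ^ i * a ≠ 0 := mul_ne_zero (pow_ne_zero _ hq.ne_zero) ha0
    have hqj : q ^ j * b ≠ 0 := mul_ne_zero (pow_ne_zero _ hq.ne_zero) hb0
    have hm : ∀ (n : ℕ) (c : R), ¬ q ∣ c → multiplicity q (q ^ n * c) = n := by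
      intro n c hc
      apply multiplicity_eq_of_dvd_of_not_dvd (Dvd.intro _ rfl)
      rw [pow_succ]
      intro hd
      exact hc ((mul_dvd_mul_iff_left (pow_ne_zero n hq.ne_zero)).mp hd)
    rw [ordAt_of_mul_eq hq hqi hqj hab, hm i a hqa, hm j b hqb] at h
    have hji : j ≤ i := by omega
    -- `x = q^(i-j) a / b`
    refine ⟨q ^ (i - j) * a, b, hqb, ?_⟩
    have hpow : ι (q ^ j) ≠ 0 := iota_ne_zero (pow_ne_zero _ hq.ne_zero)
    apply mul_right_cancel₀ hpow
    have e : q ^ i = q ^ (i - j) * q ^ j := by rw [← pow_add, Nat.sub_add_cancel hji]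
    calc x * ι b * ι (q ^ j) = x * ι (q ^ j * b) := by rw [map_mul]; ring
      _ = ι (q ^ i * a) := hab
      _ = ι (q ^ (i - j) * a) * ι (q ^ j) := by rw [e]; simp only [map_mul]; ring
  · rintro ⟨a, b, hb, hab⟩
    have hb0 : b ≠ 0 := fun h0 => hb (h0 ▸ dvd_zero q)
    have ha0 : a ≠ 0 := by
      rintro rfl
      rw [map_zero] at hab
      exact (mul_ne_zero hx (iota_ne_zero hb0)) hab
    rw [ordAt_of_mul_eq hq ha0 hb0 hab, multiplicity_eq_zero.mpr hb]
    simp

/-- **`ordAt hq` is an order function of `R_(q)`** (`hwinf` of `Asm.node_slope_eq`). -/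
theorem isOrd : IsOrd (valuationSubring (F := F) hq) (ordAt (F := F) hq) :=
  ⟨fun _ _ hx hy => ordAt_mul hq hx hy, fun _ hx => ordAt_nonneg_iff hq hx⟩

/-- **branch identification**: a valuation subring with `R ⊆ O`, `R ∖ qR ⊆ Oˣ`, `q⁻¹ ∉ O`
is `R_(q)`. -/
theorem eq_valuationSubring (O : ValuationSubring F) (hmem : ∀ x : R, ι x ∈ O)
    (hunit : ∀ x : R, ¬ q ∣ x → (ι x)⁻¹ ∈ O) (hq' : (ι q)⁻¹ ∉ O) :
    O = valuationSubring (F := F) hq := by
  have hle : valuationSubring (F := F) hq ≤ O := by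
    rintro x ⟨a, b, hb, hab⟩
    have hb0 : ι b ≠ 0 := iota_ne_zero (fun h0 => hb (h0 ▸ dvd_zero q))
    have : x = ι a * (ι b)⁻¹ := by rw [← hab]; field_simp
    rw [this]
    exact O.mul_mem _ _ (hmem a) (hunit b hb)
  apply le_antisymm _ hle
  intro x hx
  by_contra hxq
  have hx0 : x ≠ 0 := fun h0 => hxq (h0 ▸ (valuationSubring (F := F) hq).zero_mem)
  -- `x⁻¹ ∈ R_(q)` is a non-unit there, so `x⁻¹ = q * y`, `y ∈ R_(q) ⊆ O`; then `q⁻¹ = x y ∈ O`
  have hxi : x⁻¹ ∈ valuationSubring (F := F) hq :=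
    ((valuationSubring (F := F) hq).mem_or_inv_mem x).resolve_left hxq
  have hneg : ordAt (F := F) hq x < 0 := by
    by_contra hge
    exact hxq ((ordAt_nonneg_iff hq hx0).mp (not_lt.mp hge))
  have hq0 : ι q ≠ 0 := iota_ne_zero hq.ne_zero
  have hy : x⁻¹ * (ι q)⁻¹ ∈ valuationSubring (F := F) hq := by
    rw [← ordAt_nonneg_iff hq (mul_ne_zero (inv_ne_zero hx0) (inv_ne_zero hq0)),
      ordAt_mul hq (inv_ne_zero hx0) (inv_ne_zero hq0), (isOrd hq).map_inv hx0,
      (isOrd hq).map_inv hq0, ordAt_self]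
    omega
  apply hq'
  have : (ι q)⁻¹ = x * (x⁻¹ * (ι q)⁻¹) := by field_simp
  rw [this]
  exact O.mul_mem _ _ hx (hle hy)

end One

/-! ### Lying over with ramification index one (contraction) -/

section Over

variable {R : Type*} [CommRing R] [IsDomain R] [UniqueFactorizationMonoid R]
variable {F : Type*} [Field F] [Algebra R F] [IsFractionRing R F]
variable {R' : Type*} [CommRing R'] [IsDomain R'] [UniqueFactorizationMonoid R']
variable {F' : Type*} [Field F'] [Algebra R' F'] [IsFractionRing R' F']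
variable [Algebra F F']

/-- multiplicities are unchanged under a map with the contraction property. -/
theorem multiplicity_map_eq {q : R} (hq : Prime q) (i : R →+* R')
    (hcontr : ∀ (n : ℕ) (x : R), i q ^ n ∣ i x → q ^ n ∣ x) {x : R} (hx : x ≠ 0) :
    multiplicity (i q) (i x) = multiplicity q x := by
  have hfin : FiniteMultiplicity q x := FiniteMultiplicity.of_not_isUnit hq.not_isUnit hx
  apply multiplicity_eq_of_dvd_of_not_dvd
  · rw [← map_pow]
    exact map_dvd i (pow_multiplicity_dvd q x)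
  · intro hd
    exact hfin.not_pow_dvd_of_multiplicity_lt (Nat.lt_succ_self _) (hcontr _ x hd)

/-- `hvinf` of `Asm.c3_core_pair`: the order function upstairs restricts to the one downstairs. -/
theorem ordAt_algebraMap_over {q : R} (hq : Prime q) (i : R →+* R') (hq' : Prime (i q))
    (hcompat : ∀ x : R, algebraMap F F' (algebraMap R F x) = algebraMap R' F' (i x))
    (hcontr : ∀ (n : ℕ) (x : R), i q ^ n ∣ i x → q ^ n ∣ x) {e : F} (he : e ≠ 0) :
    ordAt (F := F') hq' (algebraMap F F' e) = ordAt (F := F) hq e := by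
  obtain ⟨a, b, hb, rfl⟩ := IsFractionRing.div_surjective (A := R) e
  have hb0 : b ≠ 0 := nonZeroDivisors.ne_zero hb
  have ha0 : a ≠ 0 := by rintro rfl; simp at he
  have hinj : Function.Injective i := by
    rw [injective_iff_map_eq_zero]
    intro x hx
    have h1 : algebraMap F F' (algebraMap R F x) = 0 := by rw [hcompat, hx, map_zero]
    have h2 : algebraMap R F x = 0 := (map_eq_zero (algebraMap F F')).mp h1
    exact iota_injective (F := F) (by rw [h2, map_zero])
  have hia0 : i a ≠ 0 := fun h0 => ha0 (hinj (by rw [h0, map_zero]))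
  have hib0 : i b ≠ 0 := fun h0 => hb0 (hinj (by rw [h0, map_zero]))
  rw [map_div₀, hcompat, hcompat, ordAt_div hq' hia0 hib0, ordAt_div hq ha0 hb0,
    multiplicity_map_eq hq i hcontr ha0, multiplicity_map_eq hq i hcontr hb0]

/-- `hWinf` of `Asm.c3_core_pair`: `R'_(q')` lies over `R_(q)`. -/
theorem algebraMap_mem_valuationSubring_iff {q : R} (hq : Prime q) (i : R →+* R')
    (hq' : Prime (i q))
    (hcompat : ∀ x : R, algebraMap F F' (algebraMap R F x) = algebraMap R' F' (i x))
    (hcontr : ∀ (n : ℕ) (x : R), i q ^ n ∣ i x → q ^ n ∣ x) (e : F) :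
    algebraMap F F' e ∈ valuationSubring (F := F') hq' ↔ e ∈ valuationSubring (F := F) hq := by
  rcases eq_or_ne e 0 with rfl | he
  · rw [map_zero]
    exact ⟨fun _ => (valuationSubring (F := F) hq).zero_mem,
      fun _ => (valuationSubring (F := F') hq').zero_mem⟩
  · have he' : algebraMap F F' e ≠ 0 := (map_ne_zero (algebraMap F F')).mpr he
    rw [← ordAt_nonneg_iff hq' he', ← ordAt_nonneg_iff hq he,
      ordAt_algebraMap_over hq i hq' hcompat hcontr he]

end Over

end Fermat.Agent.S40x.PrimeOrd
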