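import Mathlib
import Fermat.Prelude.Def_AlgebraicCurve_DivisorClassGroup

/-!
# Place attached to a prime element of a UFD (abstract; Mathlib + Prelude `Place` only)

`R` a UFD, `F = Frac R`, `q` a prime element.  `R_(q) ⊆ F` is a valuation subring, a DVR with
uniformiser `q`; if a field `K → F` lands in `R_(q)` it is a `Place K F`, and
`ord (algebraMap r) = multiplicity q r`.
-/

set_option linter.unusedSectionVars false

namespace Fermat.Agent.S40x.PrimePlace

open AlgebraicCurve

variable {R : Type*} [CommRing R] [IsDomain R] [UniqueFactorizationMonoid R]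
variable {F : Type*} [Field F] [Algebra R F] [IsFractionRing R F]

local notation "ι" => algebraMap R F

theorem iota_injective : Function.Injective (ι) := IsFractionRing.injective R F

/-- every nonzero `x : F` is `q^i a / (q^j b)` with `q ∤ a`, `q ∤ b`. -/
theorem exists_pow_div {q : R} (hq : Prime q) {x : F} (hx : x ≠ 0) :
    ∃ (i j : ℕ) (a b : R), ¬ q ∣ a ∧ ¬ q ∣ b ∧ x * ι (q ^ j * b) = ι (q ^ i * a) := by
  obtain ⟨a0, b0, hb0, rfl⟩ := IsFractionRing.div_surjective (A := R) x
  have hb0' : b0 ≠ 0 := nonZeroDivisors.ne_zero hb0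
  have ha0' : a0 ≠ 0 := by
    rintro rfl; simp at hx
  obtain ⟨i, a, hqa, ha⟩ := WfDvdMonoid.max_power_factor ha0' hq.irreducible
  obtain ⟨j, b, hqb, hb⟩ := WfDvdMonoid.max_power_factor hb0' hq.irreducible
  refine ⟨i, j, a, b, hqa, hqb, ?_⟩
  rw [← ha, ← hb]
  have : ι b0 ≠ 0 := fun h => hb0' (iota_injective (F := F) (by rw [h, map_zero]))
  field_simp

/-- the valuation subring `R_(q)` of `F`. -/
def valuationSubring {q : R} (hq : Prime q) : ValuationSubring F where
  carrier := {x | ∃ a b : R, ¬ q ∣ b ∧ x * ι b = ι a}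
  zero_mem' := ⟨0, 1, fun h => hq.not_isUnit (isUnit_of_dvd_one h), by simp⟩
  one_mem' := ⟨1, 1, fun h => hq.not_isUnit (isUnit_of_dvd_one h), by simp⟩
  add_mem' := by
    rintro x y ⟨a, b, hb, hx⟩ ⟨c, d, hd, hy⟩
    refine ⟨a * d + c * b, b * d, fun h => (hq.dvd_or_dvd h).elim hb hd, ?_⟩
    simp only [map_mul, map_add]
    rw [← hx, ← hy]; ring
  mul_mem' := by
    rintro x y ⟨a, b, hb, hx⟩ ⟨c, d, hd, hy⟩
    refine ⟨a * c, b * d, fun h => (hq.dvd_or_dvd h).elim hb hd, ?_⟩
    simp only [map_mul]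
    rw [← hx, ← hy]; ring
  neg_mem' := by
    rintro x ⟨a, b, hb, hx⟩
    exact ⟨-a, b, hb, by rw [map_neg, ← hx]; ring⟩
  mem_or_inv_mem' := by
    intro x
    by_cases hx : x = 0
    · left; subst hx
      exact ⟨0, 1, fun h => hq.not_isUnit (isUnit_of_dvd_one h), by simp⟩
    obtain ⟨i, j, a, b, hqa, hqb, h⟩ := exists_pow_div (F := F) hq hx
    have hq0 : ι q ≠ 0 := fun h0 => hq.ne_zero (iota_injective (F := F) (by rw [h0, map_zero]))
    rcases le_total j i with hji | hij
    · left
      refine ⟨q ^ (i - j) * a, b, hqb, ?_⟩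
      have hpow : ι (q ^ j) ≠ 0 := by rw [map_pow]; exact pow_ne_zero _ hq0
      apply mul_right_cancel₀ hpow
      have e : q ^ i = q ^ (i - j) * q ^ j := by rw [← pow_add, Nat.sub_add_cancel hji]
      calc x * ι b * ι (q ^ j) = x * ι (q ^ j * b) := by rw [map_mul]; ring
        _ = ι (q ^ i * a) := h
        _ = ι (q ^ (i - j) * a) * ι (q ^ j) := by rw [e]; simp only [map_mul]; ring
    · right
      have ha0 : ι a ≠ 0 := by
        intro h0
        have : a = 0 := iota_injective (F := F) (by rw [h0, map_zero])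
        exact hqa (this ▸ dvd_zero q)
      refine ⟨q ^ (j - i) * b, a, hqa, ?_⟩
      have hpow : ι (q ^ i) ≠ 0 := by rw [map_pow]; exact pow_ne_zero _ hq0
      have e : q ^ j = q ^ (j - i) * q ^ i := by rw [← pow_add, Nat.sub_add_cancel hij]
      have hx' : x * (ι (q ^ (j - i) * b) * ι (q ^ i)) = ι a * ι (q ^ i) := by
        calc x * (ι (q ^ (j - i) * b) * ι (q ^ i)) = x * ι (q ^ j * b) := by
              rw [e]; simp only [map_mul]; ring
          _ = ι (q ^ i * a) := h
          _ = ι a * ι (q ^ i) := by rw [map_mul]; ring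
      -- x⁻¹ * ι a = ι (q^(j-i) b)
      have : x * ι (q ^ (j - i) * b) = ι a := by
        apply mul_right_cancel₀ hpow
        rw [mul_assoc]; exact hx'
      rw [← this]
      field_simp

theorem mem_valuationSubring_iff {q : R} (hq : Prime q) {x : F} :
    x ∈ valuationSubring (F := F) hq ↔ ∃ a b : R, ¬ q ∣ b ∧ x * ι b = ι a := Iff.rfl

theorem algebraMap_mem {q : R} (hq : Prime q) (r : R) : ι r ∈ valuationSubring (F := F) hq :=
  ⟨r, 1, fun h => hq.not_isUnit (isUnit_of_dvd_one h), by simp⟩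

/-- `1 / q ∉ R_(q)`. -/
theorem inv_notMem {q : R} (hq : Prime q) : (ι q)⁻¹ ∉ valuationSubring (F := F) hq := by
  rintro ⟨a, b, hb, h⟩
  have hq0 : ι q ≠ 0 := fun h0 => hq.ne_zero (iota_injective (F := F) (by rw [h0, map_zero]))
  have : ι b = ι (q * a) := by
    rw [map_mul, ← h]; field_simp
  exact hb ⟨a, iota_injective (F := F) this⟩

theorem valuationSubring_ne_top {q : R} (hq : Prime q) : valuationSubring (F := F) hq ≠ ⊤ := by
  intro h
  exact inv_notMem (F := F) hq (h ▸ ValuationSubring.mem_top _)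

section DVR

variable {q : R} (hq : Prime q)

/-- the element `q` of `R_(q)`. -/
def qElt : valuationSubring (F := F) hq := ⟨ι q, algebraMap_mem hq q⟩

/-- `a / b` with `q ∤ a`, `q ∤ b` is a unit of `R_(q)`. -/
theorem isUnit_of_not_dvd {x : F} (hxm : x ∈ valuationSubring (F := F) hq) {a b : R}
    (ha : ¬ q ∣ a) (hb : ¬ q ∣ b) (h : x * ι b = ι a) :
    IsUnit (⟨x, hxm⟩ : valuationSubring (F := F) hq) := by
  have ha0 : ι a ≠ 0 := by
    intro h0
    have : a = 0 := iota_injective (F := F) (by rw [h0, map_zero])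
    exact ha (this ▸ dvd_zero q)
  have hb0 : ι b ≠ 0 := by
    intro h0
    have : b = 0 := iota_injective (F := F) (by rw [h0, map_zero])
    exact hb (this ▸ dvd_zero q)
  have hx0 : x ≠ 0 := by
    rintro rfl; rw [zero_mul] at h; exact ha0 h.symm
  have hinv : x⁻¹ ∈ valuationSubring (F := F) hq := ⟨b, a, ha, by rw [← h]; field_simp⟩
  refine ⟨⟨⟨x, hxm⟩, ⟨x⁻¹, hinv⟩, ?_, ?_⟩, rfl⟩
  · apply Subtype.ext; simp [hx0]
  · apply Subtype.ext; simp [hx0]

/-- every nonzero element of `R_(q)` is `q ^ n` times a unit; for `ι r` the exponent is the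
exact power of `q` in `r`. -/
theorem exists_eq_pow_mul_unit {x : F} (hxm : x ∈ valuationSubring (F := F) hq) (hx : x ≠ 0) :
    ∃ (n : ℕ) (u : (valuationSubring (F := F) hq)ˣ),
      (⟨x, hxm⟩ : valuationSubring (F := F) hq) = qElt (F := F) hq ^ n * u := by
  obtain ⟨a, b, hb, h⟩ := hxm
  have hb0 : ι b ≠ 0 := by
    intro h0
    have : b = 0 := iota_injective (F := F) (by rw [h0, map_zero])
    exact hb (this ▸ dvd_zero q)
  have ha0 : a ≠ 0 := by
    rintro rfl
    rw [map_zero] at h
    exact (mul_ne_zero hx hb0) h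
  obtain ⟨n, a', hqa', ha'⟩ := WfDvdMonoid.max_power_factor ha0 hq.irreducible
  have hq0 : ι q ≠ 0 := fun h0 => hq.ne_zero (iota_injective (F := F) (by rw [h0, map_zero]))
  -- `y := x / q^n`
  set y : F := x / ι q ^ n with hy
  have hyb : y * ι b = ι a' := by
    have hpow : ι q ^ n ≠ 0 := pow_ne_zero _ hq0
    rw [hy]
    have : x * ι b = ι q ^ n * ι a' := by rw [h, ha', map_mul, map_pow]
    field_simp
    rw [this]
  have hym : y ∈ valuationSubring (F := F) hq := ⟨a', b, hb, hyb⟩
  obtain ⟨u, hu⟩ := isUnit_of_not_dvd hq hym hqa' hb hyb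
  refine ⟨n, u, ?_⟩
  apply Subtype.ext
  rw [hu]
  show x = (ι q) ^ n * y
  rw [hy]; field_simp

theorem qElt_not_isUnit : ¬ IsUnit (qElt (F := F) hq) := by
  rintro ⟨u, hu⟩
  have h1 : ((u⁻¹ : (valuationSubring (F := F) hq)ˣ) : valuationSubring (F := F) hq).1
      = (ι q)⁻¹ := by
    have hq0 : ι q ≠ 0 := fun h0 => hq.ne_zero (iota_injective (F := F) (by rw [h0, map_zero]))
    have h2 : (u : valuationSubring (F := F) hq) * ((u⁻¹ : (valuationSubring (F := F) hq)ˣ) :
        valuationSubring (F := F) hq) = 1 := u.mul_inv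
    have h3 := congrArg Subtype.val h2
    rw [hu] at h3
    have h4 : ι q * ((u⁻¹ : (valuationSubring (F := F) hq)ˣ) :
        valuationSubring (F := F) hq).1 = 1 := h3
    field_simp
    rw [mul_comm]; exact h4
  exact inv_notMem (F := F) hq (h1 ▸ Subtype.property _)

theorem qElt_ne_zero : qElt (F := F) hq ≠ 0 := by
  intro h
  have := congrArg Subtype.val h
  have hq0 : ι q ≠ 0 := fun h0 => hq.ne_zero (iota_injective (F := F) (by rw [h0, map_zero]))
  exact hq0 this

theorem qElt_irreducible : Irreducible (qElt (F := F) hq) := by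
  refine ⟨qElt_not_isUnit hq, ?_⟩
  intro x y hxy
  have hx0 : x ≠ 0 := by
    rintro rfl; rw [zero_mul] at hxy; exact qElt_ne_zero hq hxy
  have hy0 : y ≠ 0 := by
    rintro rfl; rw [mul_zero] at hxy; exact qElt_ne_zero hq hxy
  obtain ⟨i, u, hu⟩ := exists_eq_pow_mul_unit hq x.2 (fun h => hx0 (Subtype.ext h))
  obtain ⟨j, v, hv⟩ := exists_eq_pow_mul_unit hq y.2 (fun h => hy0 (Subtype.ext h))
  have hx : x = qElt (F := F) hq ^ i * u := hu
  have hy : y = qElt (F := F) hq ^ j * v := hv
  rcases Nat.eq_zero_or_pos i with hi | hi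
  · left; rw [hx, hi, pow_zero, one_mul]; exact u.isUnit
  rcases Nat.eq_zero_or_pos j with hj | hj
  · right; rw [hy, hj, pow_zero, one_mul]; exact v.isUnit
  -- `i, j ≥ 1`: then `q = q^(i+j) u v`, so `q` is a unit
  exfalso
  apply qElt_not_isUnit (F := F) hq
  have e : qElt (F := F) hq = qElt (F := F) hq * (qElt (F := F) hq ^ (i + j - 1) * (u * v)) := by
    have h2 : i + j = (i + j - 1) + 1 := by omega
    calc qElt (F := F) hq = x * y := hxy
      _ = qElt (F := F) hq ^ (i + j) * (u * v) := by rw [hx, hy, pow_add]; ring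
      _ = qElt (F := F) hq * (qElt (F := F) hq ^ (i + j - 1) * (u * v)) := by
          conv_lhs => rw [h2, pow_succ]
          ring
  have e1 : qElt (F := F) hq ^ (i + j - 1) * ((u : valuationSubring (F := F) hq) * v) = 1 := by
    have := mul_left_cancel₀ (qElt_ne_zero hq) (e.symm.trans (mul_one _).symm)
    exact this
  have hpos : 0 < i + j - 1 := by omega
  have hunit : IsUnit (qElt (F := F) hq ^ (i + j - 1)) := IsUnit.of_mul_eq_one _ e1
  exact (isUnit_pow_iff hpos.ne').mp hunit

theorem hasUnitMulPow :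
    IsDiscreteValuationRing.HasUnitMulPowIrreducibleFactorization (valuationSubring (F := F) hq) := by
  refine ⟨qElt (F := F) hq, qElt_irreducible hq, ?_⟩
  intro x hx
  obtain ⟨n, u, hu⟩ := exists_eq_pow_mul_unit hq x.2 (fun h => hx (Subtype.ext h))
  exact ⟨n, u, hu.symm⟩

instance isDVR : IsDiscreteValuationRing (valuationSubring (F := F) hq) :=
  IsDiscreteValuationRing.ofHasUnitMulPowIrreducibleFactorization (hasUnitMulPow hq)

end DVR

section PlaceSec

open WithZero

variable {K : Type*} [Field K] [Algebra K F] {q : R} (hq : Prime q)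
  (hK : ∀ a : K, algebraMap K F a ∈ valuationSubring (F := F) hq)

/-- the place `R_(q)` of `F / K`. -/
def place : Place K F where
  toValuationSubring := valuationSubring (F := F) hq
  algebraMap_mem' := hK
  ne_top' := valuationSubring_ne_top hq
  isPrincipalIdealRing' := (isDVR (F := F) hq).toIsPrincipalIdealRing

@[simp] theorem place_toValuationSubring :
    (place (F := F) hq hK).toValuationSubring = valuationSubring (F := F) hq := rfl

/-- `ord_{R_(q)} (r) = multiplicity q r` for `0 ≠ r ∈ R`. -/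
theorem ord_algebraMap {r : R} (hr : r ≠ 0) :
    (place (F := F) hq hK).ord (ι r) = (multiplicity q r : ℤ) := by
  obtain ⟨n, r', hqr', hr'⟩ := WfDvdMonoid.max_power_factor hr hq.irreducible
  have hmult : multiplicity q r = n := by
    apply multiplicity_eq_of_dvd_of_not_dvd
    · exact ⟨r', hr'⟩
    · rw [hr', pow_succ]
      intro hd
      exact hqr' ((mul_dvd_mul_iff_left (pow_ne_zero n hq.ne_zero)).mp hd)
  have hu : IsUnit (⟨ι r', algebraMap_mem hq r'⟩ : valuationSubring (F := F) hq) :=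
    isUnit_of_not_dvd hq (algebraMap_mem hq r') (a := r') (b := 1) hqr'
      (fun h => hq.not_isUnit (isUnit_of_dvd_one h)) (by simp)
  set v := place (F := F) hq hK with hv
  have h1 : v.adicValuation ((qElt (F := F) hq : valuationSubring (F := F) hq) : F)
      = exp (-1 : ℤ) := v.adicValuation_coe_irreducible (qElt_irreducible hq)
  have h2 : v.adicValuation
      (((⟨ι r', algebraMap_mem hq r'⟩ : valuationSubring (F := F) hq)) : F) = 1 :=
    (v.adicValuation_coe_eq_one_iff _).mpr hu
  have hrF : ι r = (ι q) ^ n * ι r' := by rw [hr', map_mul, map_pow]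
  have h1' : v.adicValuation (ι q) = exp (-1 : ℤ) := h1
  have h2' : v.adicValuation (ι r') = 1 := h2
  unfold Place.ord
  rw [hmult, hrF, map_mul, map_pow, h1', h2', mul_one, ← WithZero.exp_nsmul, WithZero.log_exp]
  simp

/-- `ord (f1 / f2) = mult_q f1 - mult_q f2`. -/
theorem ord_div {f1 f2 : R} (hf1 : f1 ≠ 0) (hf2 : f2 ≠ 0) :
    (place (F := F) hq hK).ord (ι f1 / ι f2) = (multiplicity q f1 : ℤ) - multiplicity q f2 := by
  have h1 : ι f1 ≠ 0 := fun h0 => hf1 (iota_injective (F := F) (by rw [h0, map_zero]))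
  have h2 : ι f2 ≠ 0 := fun h0 => hf2 (iota_injective (F := F) (by rw [h0, map_zero]))
  rw [div_eq_mul_inv, Place.ord_mul _ h1 (inv_ne_zero h2), Place.ord_inv,
    ord_algebraMap hq hK hf1, ord_algebraMap hq hK hf2]
  ring

include hq hK in
/-- consumer form: if `p ∣ v.ord f` for EVERY place `v` of `F / K`, then the hypothesis `hp` of the
edge lemma holds at the prime `q` (as soon as `K` lands in `R_(q)`). -/
theorem dvd_sub_of_forall_place {p : ℕ} {f1 f2 : R} (hf1 : f1 ≠ 0) (hf2 : f2 ≠ 0)
    (h : ∀ v : Place K F, (p : ℤ) ∣ v.ord (ι f1 / ι f2)) :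
    (p : ℤ) ∣ (multiplicity q f1 : ℤ) - multiplicity q f2 := by
  have := h (place (F := F) hq hK)
  rwa [ord_div hq hK hf1 hf2] at this

end PlaceSec

end Fermat.Agent.S40x.PrimePlace
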