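import Fermat.Agent.S40x.EdgeB.EdgeAll
import Fermat.Agent.S40x.EdgeB.PrimePlace

/-!
# (TAME) at a node, abstract assembly (N5 of the R1 plan; helper62)

Hypothesis-style node datum `(n0)-(n4)` ==> the consumer literal
`ord_{P_s} red_inf (f / p^(v_inf f)) ≡ v_0 f - v_inf f  (mod p)`.

Everything is abstract: `F0` a field, `R` the node ring (Noetherian domain with `Frac R = F0`),
`u, u'` the two branch elements (`u ↔ v_inf`, `u' ↔ v_0`), `u u' = pe Ψ` with `Ψ` a unit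
(thickness 1; `pe` is the element `p` of `R`), `ρ : R → D` the reduction onto the local ring `D`
(a DVR) of `C_inf` at `P_s`, with kernel `(u)` and `ρ u'` a uniformiser, `κ = Frac D`.
-/

set_option linter.unusedSectionVars false

namespace Fermat.Agent.S40x.TameAbs

open Fermat.Agent.S40x.EdgeUFD IsDiscreteValuationRing

variable {F0 : Type*} [Field F0]
variable {R : Type*} [CommRing R] [IsDomain R] [IsNoetherianRing R] [Algebra R F0]
  [IsFractionRing R F0]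
variable {D : Type*} [CommRing D] [IsDomain D] [IsDiscreteValuationRing D]
variable {κ : Type*} [Field κ] [Algebra D κ] [IsFractionRing D κ]

local notation "ι" => algebraMap R F0
local notation "j" => algebraMap D κ

/-- `ordK (j d) = addVal d`, multiplicative bookkeeping for a product `d1 * d2^m * d3^n`. -/
theorem ordK_three {d1 d2 d3 : D} {n1 : ℕ} (h1 : addVal D d1 = n1) (h2 : IsUnit d2)
    (h3 : Irreducible d3) (m n : ℕ) :
    addVal D (d1 * d2 ^ m * d3 ^ n) = ((n1 + n : ℕ) : ℕ∞) := by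
  obtain ⟨w, rfl⟩ := h2
  rw [addVal_mul, addVal_mul, addVal_pow, addVal_pow, addVal_uniformizer h3, h1,
    addVal_eq_zero_of_unit w]
  push_cast
  simp

/-- **(TAME), abstract.** -/
theorem tame {u u' Ψ pe : R} (hu0 : u ≠ 0) (huJ : u ∈ (⊥ : Ideal R).jacobson)
    (ρ : R →+* D) (hsurj : Function.Surjective ρ) (hker : RingHom.ker ρ = Ideal.span {u})
    (hu' : Prime u') (hne : ¬ Associated u u') (hunif : Irreducible (ρ u'))
    (hΨ : IsUnit Ψ) (hrel : u * u' = pe * Ψ)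
    (vInf v0 : F0 → ℤ)
    (hvInf : ∀ f1 f2 : R, f1 ≠ 0 → f2 ≠ 0 →
      vInf (ι f1 / ι f2) = (multiplicity u f1 : ℤ) - multiplicity u f2)
    (hv0 : ∀ f1 f2 : R, f1 ≠ 0 → f2 ≠ 0 →
      v0 (ι f1 / ι f2) = (multiplicity u' f1 : ℤ) - multiplicity u' f2)
    (redInf : F0 → κ)
    (hred : ∀ h1 h2 : R, ¬ u ∣ h1 → ¬ u ∣ h2 → redInf (ι h1 / ι h2) = j (ρ h1) / j (ρ h2))
    {p : ℕ} (hp0 : 0 < p) {f : F0} (hf : f ≠ 0)
    (hdiv : ∀ q : R, Prime q → ¬ Associated q u → ¬ Associated q u' →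
      ∀ f1 f2 : R, f1 ≠ 0 → f2 ≠ 0 → f = ι f1 / ι f2 →
        (p : ℤ) ∣ (multiplicity q f1 : ℤ) - multiplicity q f2) :
    ordK (D := D) κ (redInf (f / (ι pe) ^ (vInf f))) ≡ v0 f - vInf f [ZMOD p] := by
  have hinj : Function.Injective (ι) := IsFractionRing.injective R F0
  have hι0 : ∀ {r : R}, r ≠ 0 → ι r ≠ 0 := fun hr h0 => hr (hinj (by rw [h0, map_zero]))
  have hu : Prime u := prime_of_ker_eq hu0 ρ hker
  have hUFD : UniqueFactorizationMonoid R := ufd_of_red hu0 huJ ρ hsurj hker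
  -- write `f = f1 / f2`
  obtain ⟨f1, f2, hf2mem, rfl⟩ := IsFractionRing.div_surjective (A := R) f
  have hf2 : f2 ≠ 0 := nonZeroDivisors.ne_zero hf2mem
  have hf1 : f1 ≠ 0 := by
    rintro rfl; simp at hf
  have hfin1 : FiniteMultiplicity u f1 := FiniteMultiplicity.of_not_isUnit hu.not_isUnit hf1
  have hfin2 : FiniteMultiplicity u f2 := FiniteMultiplicity.of_not_isUnit hu.not_isUnit hf2
  obtain ⟨h1, hfh1, huh1⟩ := hfin1.exists_eq_pow_mul_and_not_dvd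
  obtain ⟨h2, hfh2, huh2⟩ := hfin2.exists_eq_pow_mul_and_not_dvd
  set a1 := multiplicity u f1 with ha1
  set a2 := multiplicity u f2 with ha2
  have hp' : ∀ q : R, Prime q → ¬ Associated q u → ¬ Associated q u' →
      (p : ℤ) ∣ (multiplicity q f1 : ℤ) - multiplicity q f2 :=
    fun q hq h1' h2' => hdiv q hq h1' h2' f1 f2 hf1 hf2 rfl
  obtain ⟨n1, n2, hn1, hn2, hcong⟩ :=
    edge_main hu0 huJ ρ hsurj hker hu' hne hunif hp0 hf1 hf2 hp' hfh1 hfh2
  -- the normalised function as a quotient of `u`-units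
  have hpe0 : pe ≠ 0 := by
    rintro rfl
    rw [zero_mul] at hrel
    exact (mul_ne_zero hu0 hu'.ne_zero) hrel
  have hΨ0 : Ψ ≠ 0 := hΨ.ne_zero
  have huΨ : ¬ u ∣ Ψ := fun h => hu.not_isUnit (isUnit_of_dvd_unit h hΨ)
  have huu' : ¬ u ∣ u' := fun h => hne (hu.associated_of_dvd hu' h)
  set H1 : R := h1 * Ψ ^ a1 * u' ^ a2 with hH1
  set H2 : R := h2 * Ψ ^ a2 * u' ^ a1 with hH2
  have huH1 : ¬ u ∣ H1 := by
    intro h
    rcases hu.dvd_or_dvd h with h | h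
    · rcases hu.dvd_or_dvd h with h | h
      · exact huh1 h
      · exact huΨ (hu.dvd_of_dvd_pow h)
    · exact huu' (hu.dvd_of_dvd_pow h)
  have huH2 : ¬ u ∣ H2 := by
    intro h
    rcases hu.dvd_or_dvd h with h | h
    · rcases hu.dvd_or_dvd h with h | h
      · exact huh2 h
      · exact huΨ (hu.dvd_of_dvd_pow h)
    · exact huu' (hu.dvd_of_dvd_pow h)
  have hva : vInf (ι f1 / ι f2) = (a1 : ℤ) - a2 := hvInf f1 f2 hf1 hf2
  have hkey : ι f1 / ι f2 / (ι pe) ^ (vInf (ι f1 / ι f2)) = ι H1 / ι H2 := by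
    rw [hva]
    have e1 : ι pe = ι u * ι u' / ι Ψ := by
      rw [← map_mul, hrel, map_mul]; field_simp [hι0 hΨ0]
    have hx0 : ι pe ≠ 0 := hι0 hpe0
    rw [zpow_sub₀ hx0, zpow_natCast, zpow_natCast, e1]
    have hu0' := hι0 hu0
    have hu'0 := hι0 hu'.ne_zero
    have hΨ0' := hι0 hΨ0
    have hh2 : ι h2 ≠ 0 := hι0 (fun h0 => huh2 (h0 ▸ dvd_zero u))
    conv_lhs => rw [hfh1, hfh2]
    simp only [hH1, hH2, map_mul, map_pow, div_pow, mul_pow]
    field_simp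
  rw [hkey, hred H1 H2 huH1 huH2]
  have hρΨ : IsUnit (ρ Ψ) := hΨ.map ρ
  have hA1 : addVal D (ρ H1) = ((n1 + a2 : ℕ) : ℕ∞) := by
    rw [hH1, RingHom.map_mul, RingHom.map_mul, RingHom.map_pow, RingHom.map_pow]
    exact ordK_three hn1 hρΨ hunif a1 a2
  have hA2 : addVal D (ρ H2) = ((n2 + a1 : ℕ) : ℕ∞) := by
    rw [hH2, RingHom.map_mul, RingHom.map_mul, RingHom.map_pow, RingHom.map_pow]
    exact ordK_three hn2 hρΨ hunif a2 a1
  have hne' : ∀ {d : D} {n : ℕ}, addVal D d = n → j d ≠ 0 := by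
    intro d n hn h0
    have : d = 0 := (IsFractionRing.injective D κ) (by rw [h0, map_zero])
    rw [this, addVal_zero] at hn
    exact ENat.top_ne_natCast n hn
  rw [ordK_div κ (hne' hA1) (hne' hA2), ordK_algebraMap κ hA1, ordK_algebraMap κ hA2,
    hv0 f1 f2 hf1 hf2, hva]
  have : (((n1 + a2 : ℕ) : ℤ) - ((n2 + a1 : ℕ) : ℤ)) =
      ((n1 : ℤ) - n2) - ((a1 : ℤ) - a2) := by push_cast; ring
  rw [this]
  exact Int.ModEq.sub_right _ hcong

section Places

open AlgebraicCurve Fermat.Agent.S40x.PrimePlace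

variable {K0 : Type*} [Field K0] [Algebra K0 F0]

/-- a prime `q` not associated to `u`, `u'` does not divide `pe ^ n` (`u u' = pe Ψ`). -/
theorem not_dvd_pe_pow {u u' Ψ pe q : R} (hu : Prime u) (hu' : Prime u') (hq : Prime q)
    (hrel : u * u' = pe * Ψ) (h1 : ¬ Associated q u) (h2 : ¬ Associated q u') (n : ℕ) :
    ¬ q ∣ pe ^ n := by
  intro h
  have h3 : q ∣ pe := hq.dvd_of_dvd_pow h
  have h4 : q ∣ u * u' := hrel ▸ Dvd.dvd.mul_right h3 Ψ
  rcases hq.dvd_or_dvd h4 with h5 | h5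
  · exact h1 (hq.associated_of_dvd hu h5)
  · exact h2 (hq.associated_of_dvd hu' h5)

/-- **(TAME), abstract, place form**: the divisibility hypothesis is
`p ∣ v.ord f` for every place `v` of `F0 / K0`, where `K0 ⊆ R[1/pe]`. -/
theorem tame_of_places {u u' Ψ pe : R} (hu0 : u ≠ 0) (huJ : u ∈ (⊥ : Ideal R).jacobson)
    (ρ : R →+* D) (hsurj : Function.Surjective ρ) (hker : RingHom.ker ρ = Ideal.span {u})
    (hu' : Prime u') (hne : ¬ Associated u u') (hunif : Irreducible (ρ u'))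
    (hΨ : IsUnit Ψ) (hrel : u * u' = pe * Ψ)
    (vInf v0 : F0 → ℤ)
    (hvInf : ∀ f1 f2 : R, f1 ≠ 0 → f2 ≠ 0 →
      vInf (ι f1 / ι f2) = (multiplicity u f1 : ℤ) - multiplicity u f2)
    (hv0 : ∀ f1 f2 : R, f1 ≠ 0 → f2 ≠ 0 →
      v0 (ι f1 / ι f2) = (multiplicity u' f1 : ℤ) - multiplicity u' f2)
    (redInf : F0 → κ)
    (hred : ∀ h1 h2 : R, ¬ u ∣ h1 → ¬ u ∣ h2 → redInf (ι h1 / ι h2) = j (ρ h1) / j (ρ h2))
    (hK0 : ∀ a : K0, ∃ (r : R) (n : ℕ), algebraMap K0 F0 a * (ι pe) ^ n = ι r)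
    {p : ℕ} (hp0 : 0 < p) {f : F0} (hf : f ≠ 0)
    (hplaces : ∀ v : Place K0 F0, (p : ℤ) ∣ v.ord f) :
    ordK (D := D) κ (redInf (f / (ι pe) ^ (vInf f))) ≡ v0 f - vInf f [ZMOD p] := by
  have hu : Prime u := prime_of_ker_eq hu0 ρ hker
  have hUFD : UniqueFactorizationMonoid R := ufd_of_red hu0 huJ ρ hsurj hker
  refine tame hu0 huJ ρ hsurj hker hu' hne hunif hΨ hrel vInf v0 hvInf hv0 redInf hred hp0 hf ?_
  intro q hq h1 h2 f1 f2 hf1 hf2 hff
  have hK : ∀ a : K0, algebraMap K0 F0 a ∈ valuationSubring (F := F0) hq := by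
    intro a
    obtain ⟨r, n, hr⟩ := hK0 a
    refine ⟨r, pe ^ n, not_dvd_pe_pow hu hu' hq hrel h1 h2 n, ?_⟩
    rw [map_pow]; exact hr
  exact dvd_sub_of_forall_place hq hK hf1 hf2 (fun v => hff ▸ hplaces v)

end Places

end Fermat.Agent.S40x.TameAbs
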