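import Fermat.Agent.S40x.EdgeB.TameAbs

/-!
# (E0) / (N-Sm): the smooth-point version of (TAME) (abstract; helper62, second of N4's algebra)

`R` Noetherian domain, `pe ≠ 0` in the Jacobson radical, `ρ : R → D` onto a DVR with kernel `(pe)`
(`D` = local ring of `C_inf` at a smooth point `P`, `pe` = the element `p`). If `p ∣ ord_q f` at all
primes `q` not associated to `pe`, then `ord_P red_inf (f / pe^(v_inf f)) ≡ 0 (mod p)`.
-/

set_option linter.unusedSectionVars false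

namespace Fermat.Agent.S40x.TameSmooth

open Fermat.Agent.S40x.EdgeUFD IsDiscreteValuationRing

section Ring

variable {R : Type*} [CommRing R] [IsDomain R] [UniqueFactorizationMonoid R]
variable {D : Type*} [CommRing D] [IsDomain D] [IsDiscreteValuationRing D]

/-- (E0), ring form. -/
theorem edge0_ring {z : R} (hz : Prime z) (red : R →+* D) (hker : ∀ x, red x = 0 → z ∣ x)
    (p : ℕ) {f : R} (hf : f ≠ 0)
    (hp : ∀ q : R, Prime q → ¬ Associated q z → p ∣ multiplicity q f)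
    {h : R} (hfh : f = z ^ multiplicity z f * h) :
    ∃ n : ℕ, addVal D (red h) = ((p * n : ℕ) : ℕ∞) := by
  obtain ⟨ε, a, b, g, hfg, hg, -⟩ :=
    exists_factorization hz hz p f hf (fun q hq h1 _ => hp q hq h1)
  have hg0 : g ≠ 0 := by rintro rfl; exact hg (dvd_zero z)
  -- `multiplicity z f = a + b`
  have hmult : multiplicity z f = a + b := by
    apply multiplicity_eq_of_dvd_of_not_dvd
    · exact ⟨ε * g ^ p, by rw [hfg, pow_add]; ring⟩
    · intro hd
      have e : f = z ^ (a + b) * (ε * g ^ p) := by rw [hfg, pow_add]; ring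
      rw [e, pow_succ] at hd
      have h2 : z ∣ ε * g ^ p := (mul_dvd_mul_iff_left (pow_ne_zero _ hz.ne_zero)).mp hd
      rcases hz.dvd_or_dvd h2 with h3 | h3
      · exact hz.not_isUnit (isUnit_of_dvd_unit h3 ε.isUnit)
      · exact hg (hz.dvd_of_dvd_pow h3)
  have hh : h = ε * g ^ p := by
    apply mul_left_cancel₀ (pow_ne_zero (a + b) hz.ne_zero)
    rw [hmult] at hfh
    rw [← hfh, hfg, pow_add]; ring
  have hredg : red g ≠ 0 := fun h0 => hg (hker g h0)
  obtain ⟨n, hn⟩ := ENat.ne_top_iff_exists.mp (fun ht => hredg (addVal_eq_top_iff.mp ht))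
  refine ⟨n, ?_⟩
  have hu : addVal D (red (ε : R)) = 0 := addVal_eq_zero_of_unit (Units.map red.toMonoidHom ε)
  rw [hh, RingHom.map_mul, RingHom.map_pow, addVal_mul, addVal_pow, hu, ← hn]
  push_cast
  simp

/-- (E0), fraction form. -/
theorem edge0_frac {z : R} (hz : Prime z) (red : R →+* D) (hker : ∀ x, red x = 0 → z ∣ x)
    {p : ℕ} (hp0 : 0 < p) {f1 f2 : R} (hf1 : f1 ≠ 0) (hf2 : f2 ≠ 0)
    (hp : ∀ q : R, Prime q → ¬ Associated q z →
      (p : ℤ) ∣ (multiplicity q f1 : ℤ) - multiplicity q f2)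
    {h1 h2 : R} (hfh1 : f1 = z ^ multiplicity z f1 * h1)
    (hfh2 : f2 = z ^ multiplicity z f2 * h2) :
    ∃ n1 n2 : ℕ, addVal D (red h1) = n1 ∧ addVal D (red h2) = n2 ∧
      ((n1 : ℤ) - n2) ≡ 0 [ZMOD p] := by
  have hzh : ∀ {f h : R}, f ≠ 0 → f = z ^ multiplicity z f * h → ¬ z ∣ h := by
    intro f h hf hfh hdvd
    obtain ⟨c, rfl⟩ := hdvd
    have hfin : FiniteMultiplicity z f := FiniteMultiplicity.of_not_isUnit hz.not_isUnit hf
    have : z ^ (multiplicity z f + 1) ∣ f := ⟨c, by rw [pow_succ]; rw [mul_assoc]; exact hfh⟩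
    exact hfin.not_pow_dvd_of_multiplicity_lt (Nat.lt_succ_self _) this
  have hred1 : red h1 ≠ 0 := fun h0 => hzh hf1 hfh1 (hker h1 h0)
  have hred2 : red h2 ≠ 0 := fun h0 => hzh hf2 hfh2 (hker h2 h0)
  obtain ⟨n1, hn1⟩ := ENat.ne_top_iff_exists.mp (fun ht => hred1 (addVal_eq_top_iff.mp ht))
  obtain ⟨n2, hn2⟩ := ENat.ne_top_iff_exists.mp (fun ht => hred2 (addVal_eq_top_iff.mp ht))
  refine ⟨n1, n2, hn1.symm, hn2.symm, ?_⟩
  obtain ⟨p', rfl⟩ : ∃ p', p = p' + 1 := ⟨p - 1, by omega⟩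
  set F := f1 * f2 ^ p' with hF
  have hF0 : F ≠ 0 := mul_ne_zero hf1 (pow_ne_zero _ hf2)
  have hmulF : ∀ w : R, Prime w →
      multiplicity w F = multiplicity w f1 + p' * multiplicity w f2 := by
    intro w hw
    rw [hF, multiplicity_mul' hw hf1 (pow_ne_zero _ hf2),
      (FiniteMultiplicity.of_not_isUnit hw.not_isUnit hf2).multiplicity_pow hw]
  have hpF : ∀ q : R, Prime q → ¬ Associated q z → (p' + 1) ∣ multiplicity q F := by
    intro q hq h1
    have := hp q hq h1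
    rw [hmulF q hq]
    have hcast : ((p' + 1 : ℕ) : ℤ) ∣ ((multiplicity q f1 + p' * multiplicity q f2 : ℕ) : ℤ) := by
      obtain ⟨c, hc⟩ := this
      refine ⟨c + multiplicity q f2, ?_⟩
      push_cast at hc ⊢
      linarith [hc]
    exact_mod_cast hcast
  have hFh : F = z ^ multiplicity z F * (h1 * h2 ^ p') := by
    rw [hmulF z hz, hF]
    conv_lhs => rw [hfh1, hfh2]
    rw [pow_add, mul_pow, ← pow_mul, mul_comm (multiplicity z f2) p']; ring
  obtain ⟨n, hn⟩ := edge0_ring hz red hker (p' + 1) hF0 hpF hFh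
  rw [RingHom.map_mul, RingHom.map_pow, addVal_mul, addVal_pow, ← hn1, ← hn2] at hn
  have hn' : (n1 + p' * n2 : ℕ) = (p' + 1) * n := by
    have : ((n1 + p' * n2 : ℕ) : ℕ∞) = (((p' + 1) * n : ℕ) : ℕ∞) := by
      rw [← hn]; push_cast; simp
    exact_mod_cast this
  refine Int.modEq_iff_dvd.mpr ⟨(n2 : ℤ) - n, ?_⟩
  have := congrArg (fun x : ℕ => (x : ℤ)) hn'
  push_cast at this ⊢
  linarith [this]

end Ring

section Field

open AlgebraicCurve Fermat.Agent.S40x.PrimePlace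

variable {F0 : Type*} [Field F0]
variable {R : Type*} [CommRing R] [IsDomain R] [IsNoetherianRing R] [Algebra R F0]
  [IsFractionRing R F0]
variable {D : Type*} [CommRing D] [IsDomain D] [IsDiscreteValuationRing D]
variable {κ : Type*} [Field κ] [Algebra D κ] [IsFractionRing D κ]
variable {K0 : Type*} [Field K0] [Algebra K0 F0]

local notation "ι" => algebraMap R F0
local notation "j" => algebraMap D κ

/-- **(N-Sm) / (b5), abstract, place form.** -/
theorem tame_smooth_of_places {pe : R} (hpe0 : pe ≠ 0) (hpeJ : pe ∈ (⊥ : Ideal R).jacobson)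
    (ρ : R →+* D) (hsurj : Function.Surjective ρ) (hker : RingHom.ker ρ = Ideal.span {pe})
    (vInf : F0 → ℤ)
    (hvInf : ∀ f1 f2 : R, f1 ≠ 0 → f2 ≠ 0 →
      vInf (ι f1 / ι f2) = (multiplicity pe f1 : ℤ) - multiplicity pe f2)
    (redInf : F0 → κ)
    (hred : ∀ h1 h2 : R, ¬ pe ∣ h1 → ¬ pe ∣ h2 → redInf (ι h1 / ι h2) = j (ρ h1) / j (ρ h2))
    (hK0 : ∀ a : K0, ∃ (r : R) (n : ℕ), algebraMap K0 F0 a * (ι pe) ^ n = ι r)
    {p : ℕ} (hp0 : 0 < p) {f : F0} (hf : f ≠ 0)
    (hplaces : ∀ v : Place K0 F0, (p : ℤ) ∣ v.ord f) :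
    ordK (D := D) κ (redInf (f / (ι pe) ^ (vInf f))) ≡ 0 [ZMOD p] := by
  have hinj : Function.Injective (ι) := IsFractionRing.injective R F0
  have hι0 : ∀ {r : R}, r ≠ 0 → ι r ≠ 0 := fun hr h0 => hr (hinj (by rw [h0, map_zero]))
  have hz : Prime pe := prime_of_ker_eq hpe0 ρ hker
  have hUFD : UniqueFactorizationMonoid R := ufd_of_red hpe0 hpeJ ρ hsurj hker
  obtain ⟨f1, f2, hf2mem, rfl⟩ := IsFractionRing.div_surjective (A := R) f
  have hf2 : f2 ≠ 0 := nonZeroDivisors.ne_zero hf2mem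
  have hf1 : f1 ≠ 0 := by
    rintro rfl; simp at hf
  have hfin1 : FiniteMultiplicity pe f1 := FiniteMultiplicity.of_not_isUnit hz.not_isUnit hf1
  have hfin2 : FiniteMultiplicity pe f2 := FiniteMultiplicity.of_not_isUnit hz.not_isUnit hf2
  obtain ⟨h1, hfh1, huh1⟩ := hfin1.exists_eq_pow_mul_and_not_dvd
  obtain ⟨h2, hfh2, huh2⟩ := hfin2.exists_eq_pow_mul_and_not_dvd
  set a1 := multiplicity pe f1 with ha1
  set a2 := multiplicity pe f2 with ha2
  have hker' : ∀ x, ρ x = 0 → pe ∣ x := by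
    intro x hx
    have : x ∈ RingHom.ker ρ := hx
    rw [hker] at this
    exact Ideal.mem_span_singleton.mp this
  have hp' : ∀ q : R, Prime q → ¬ Associated q pe →
      (p : ℤ) ∣ (multiplicity q f1 : ℤ) - multiplicity q f2 := by
    intro q hq h1'
    have hK : ∀ a : K0, algebraMap K0 F0 a ∈ valuationSubring (F := F0) hq := by
      intro a
      obtain ⟨r, n, hr⟩ := hK0 a
      refine ⟨r, pe ^ n, ?_, by rw [map_pow]; exact hr⟩
      intro h
      exact h1' (hq.associated_of_dvd hz (hq.dvd_of_dvd_pow h))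
    exact dvd_sub_of_forall_place hq hK hf1 hf2 hplaces
  obtain ⟨n1, n2, hn1, hn2, hcong⟩ := edge0_frac hz ρ hker' hp0 hf1 hf2 hp' hfh1 hfh2
  have hva : vInf (ι f1 / ι f2) = (a1 : ℤ) - a2 := hvInf f1 f2 hf1 hf2
  have hkey : ι f1 / ι f2 / (ι pe) ^ (vInf (ι f1 / ι f2)) = ι h1 / ι h2 := by
    rw [hva]
    have hx0 : ι pe ≠ 0 := hι0 hpe0
    rw [zpow_sub₀ hx0, zpow_natCast, zpow_natCast]
    have hh2 : ι h2 ≠ 0 := hι0 (fun h0 => huh2 (h0 ▸ dvd_zero pe))
    conv_lhs => rw [hfh1, hfh2]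
    simp only [map_mul, map_pow]
    field_simp
  have hne' : ∀ {d : D} {n : ℕ}, addVal D d = n → j d ≠ 0 := by
    intro d n hn h0
    have : d = 0 := (IsFractionRing.injective D κ) (by rw [h0, map_zero])
    rw [this, addVal_zero] at hn
    exact ENat.top_ne_natCast n hn
  rw [hkey, hred h1 h2 huh1 huh2, ordK_div κ (hne' hn1) (hne' hn2), ordK_algebraMap κ hn1,
    ordK_algebraMap κ hn2]
  exact hcong

end Field

end Fermat.Agent.S40x.TameSmooth
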