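import Fermat.Agent.S40x.Edge.EdgeField
import Fermat.Agent.S40x.EdgeB.PrimePlace

/-!
# (TAME) at a node, valuation form (N5 of the R1 plan, literal `S44-IFACE-R1-N5`; helper62)

Consumer of the reference edge literals of helper54 (`Edge/PthPowerDiv`, `Edge/EdgeField`) and of
the VALUATION HALF of the literal (N-OUT) of helper50 (`Node/NodeDatum.IsNodeRing`):

* `S` a UFD with `Frac S = F0` (the node ring), `u`, `u'` non-associated primes, `u u' = p ψ`, `ψ` a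
  unit;
* `(v1)` `Oinf : ValuationSubring F0` contains `S`, and `S ∖ uS` consists of units of `Oinf`;
  `(v0)` `p⁻¹ ∉ Oinf`;  `(v1')`, `(v0')` the same for `Ozero`, `u'`;
* `(d3)` `redInf : Oinf →+* κ` killing the non-units; `Ps : Place k κ` with
  `0 ≤ Ps.ord (redInf x)` for `x ∈ S` and `Ps.ord (redInf u') = 1`
  (weak `(n3)`: no surjectivity onto the local ring of `C_inf` at `P_s`, no DVR `S ⧸ (u)`);
* `(n4)` horizontal primes, three interchangeable forms: `H` = the exact-exponent form of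
  `Edge.exists_edge_factorisation_field` (output shape of the CFE leaf), `hdiv` = multiplicity form,
  `hplaces` = `p ∣ v.ord f` for every place `v` of `F0 / K0`, `K0 ⊆ S[1/p]`.

Conclusion (TAME): if `v_inf f = a`, `v_0 f = b` (normalised by `v p = 1`) then `f / p^a ∈ Oinf`
and `Ps.ord (redInf (f / p^a)) ≡ b - a  (mod p)`.
-/

set_option linter.unusedSectionVars false

namespace Fermat.Agent.S40x.TameVal

open Fermat.Agent.S40x.Edge AlgebraicCurve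

section Valuation

variable {F0 : Type*} [Field F0]

/-- both `x` and `x⁻¹` in `O`, `x ≠ 0` : valuation one. -/
theorem valuation_eq_one_of_mem_of_inv_mem (O : ValuationSubring F0) {x : F0} (hx0 : x ≠ 0)
    (hx : x ∈ O) (hxi : x⁻¹ ∈ O) : O.valuation x = 1 := by
  have h1 : O.valuation x ≤ 1 := (O.valuation_le_one_iff x).mpr hx
  have h2 : O.valuation x⁻¹ ≤ 1 := (O.valuation_le_one_iff x⁻¹).mpr hxi
  have h0 : O.valuation x ≠ 0 := (Valuation.ne_zero_iff _).mpr hx0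
  rw [map_inv₀, inv_le_one₀ (zero_lt_iff.mpr h0)] at h2
  exact le_antisymm h1 h2

/-- `x⁻¹ ∉ O` : valuation `< 1`. -/
theorem valuation_lt_one_of_inv_notMem (O : ValuationSubring F0) {x : F0}
    (hxi : x⁻¹ ∉ O) : O.valuation x < 1 := by
  by_contra hlt
  rw [not_lt] at hlt
  apply hxi
  rw [← O.valuation_le_one_iff, map_inv₀]
  rcases eq_or_ne (O.valuation x) 0 with h0 | h0
  · rw [h0, inv_zero]; exact zero_le_one
  · exact (inv_le_one₀ (zero_lt_iff.mpr h0)).mpr hlt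

/-- injectivity of `n ↦ γ ^ n` for `γ < 1`, `γ ≠ 0` in a value group. -/
theorem zpow_inj_of_lt_one {Γ : Type*} [LinearOrderedCommGroupWithZero Γ] {γ : Γ} (h0 : γ ≠ 0)
    (h1 : γ < 1) {a b : ℤ} (hab : γ ^ a = γ ^ b) : a = b := by
  by_contra hne
  wlog hlt : a < b generalizing a b
  · exact this hab.symm (Ne.symm hne) (lt_of_le_of_ne (not_lt.mp hlt) (Ne.symm hne))
  have hpos : 0 < b - a := sub_pos.mpr hlt
  have h2 : γ ^ (b - a) = 1 := by
    rw [zpow_sub₀ h0, hab, div_self (zpow_ne_zero _ h0)]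
  obtain ⟨n, hn⟩ := Int.eq_ofNat_of_zero_le hpos.le
  rw [hn, zpow_natCast] at h2
  have hn0 : n ≠ 0 := by
    rintro rfl
    simp at hn
    omega
  have : γ ^ n < 1 := pow_lt_one₀ zero_le h1 hn0
  exact absurd h2 this.ne

end Valuation

section Ord

variable {S : Type*} [CommRing S]
variable {k κ : Type*} [Field k] [Field κ] [Algebra k κ]

theorem ord_pow' (Ps : Place k κ) (x : κ) (n : ℕ) : Ps.ord (x ^ n) = (n : ℤ) * Ps.ord x := by
  rw [← zpow_natCast, Ps.ord_zpow]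

/-- a ring hom `r : S → κ` with `0 ≤ ord_P (r x)` on `S` has `ord_P (r w) = 0` on units. -/
theorem ord_unit_eq_zero (r : S →+* κ) (Ps : Place k κ) (hnonneg : ∀ x : S, 0 ≤ Ps.ord (r x))
    {w : S} (hw : IsUnit w) : Ps.ord (r w) = 0 ∧ r w ≠ 0 := by
  obtain ⟨w', hw'⟩ := hw.exists_right_inv
  have h12 : r w * r w' = 1 := by rw [← map_mul, hw', map_one]
  have h1 : r w ≠ 0 := left_ne_zero_of_mul_eq_one h12
  have h2 : r w' ≠ 0 := right_ne_zero_of_mul_eq_one h12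
  have h3 : Ps.ord (r w) + Ps.ord (r w') = 0 := by
    rw [← Ps.ord_mul h1 h2, h12, Place.ord_one]
  have h4 := hnonneg w
  have h5 := hnonneg w'
  exact ⟨by omega, h1⟩

end Ord

section Main

variable {F0 : Type*} [Field F0]
variable {S : Type*} [CommRing S] [IsDomain S] [UniqueFactorizationMonoid S] [Algebra S F0]
  [IsFractionRing S F0]
variable {k κ : Type*} [Field k] [Field κ] [Algebra k κ]

local notation "ι" => algebraMap S F0

theorem algebraMap_ne_zero' {x : S} (hx : x ≠ 0) : ι x ≠ 0 := fun h0 =>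
  hx ((IsFractionRing.injective S F0) (by rw [h0, map_zero]))

/-- `(v1)`: elements of `S` outside `(u)` have valuation one. -/
theorem valuation_eq_one {u : S} (O : ValuationSubring F0) (hmem : ∀ x : S, ι x ∈ O)
    (hunit : ∀ x : S, ¬ u ∣ x → (ι x)⁻¹ ∈ O) {y : S} (hy : ¬ u ∣ y) : O.valuation (ι y) = 1 :=
  valuation_eq_one_of_mem_of_inv_mem O (algebraMap_ne_zero' (fun h0 => hy (h0 ▸ dvd_zero u)))
    (hmem y) (hunit y hy)

/-- `(v1)`: `v p = v u`. -/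
theorem valuation_natCast_eq {p : ℕ} {u u' ψ : S} (hu : Prime u) (hu' : Prime u')
    (hne : ¬ Associated u u') (hψ : IsUnit ψ) (hrel : u * u' = (p : S) * ψ)
    (O : ValuationSubring F0) (hmem : ∀ x : S, ι x ∈ O)
    (hunit : ∀ x : S, ¬ u ∣ x → (ι x)⁻¹ ∈ O) :
    O.valuation ((p : ℕ) : F0) = O.valuation (ι u) := by
  have huψ : ¬ u ∣ ψ := fun h => hu.not_isUnit (isUnit_of_dvd_unit h hψ)
  have huu' : ¬ u ∣ u' := fun h => hne (hu.associated_of_dvd hu' h)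
  have h1 : ι u * ι u' = ((p : ℕ) : F0) * ι ψ := by
    rw [← map_mul, hrel, map_mul, map_natCast]
  have h2 := congrArg O.valuation h1
  rw [map_mul, map_mul, valuation_eq_one O hmem hunit huu', valuation_eq_one O hmem hunit huψ,
    mul_one, mul_one] at h2
  exact h2.symm

/-- the valuation of `f1 / f2` read off a ring-level edge factorisation (shape of
`Edge.exists_edge_factorisation_div`). -/
theorem valuation_div_eq_zpow {p : ℕ} {u u' ψ : S} (hu : Prime u) (hu' : Prime u')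
    (hne : ¬ Associated u u') (hψ : IsUnit ψ) (hrel : u * u' = (p : S) * ψ)
    (O : ValuationSubring F0) (hmem : ∀ x : S, ι x ∈ O)
    (hunit : ∀ x : S, ¬ u ∣ x → (ι x)⁻¹ ∈ O)
    {f1 f2 g1 g2 : S} {ε : Sˣ} {a1 a2 b1 b2 m : ℕ} (hf2 : f2 ≠ 0)
    (hfact : f1 * (u ^ a2 * u' ^ b2 * g2 ^ m) = ε * u ^ a1 * u' ^ b1 * g1 ^ m * f2)
    (hg1 : ¬ u ∣ g1) (hg2 : ¬ u ∣ g2) :
    O.valuation (ι f1 / ι f2) = O.valuation ((p : ℕ) : F0) ^ ((a1 : ℤ) - a2) := by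
  have huu' : ¬ u ∣ u' := fun h => hne (hu.associated_of_dvd hu' h)
  have huε : ¬ u ∣ (ε : S) := fun h => hu.not_isUnit (isUnit_of_dvd_unit h ε.isUnit)
  have hvp := valuation_natCast_eq hu hu' hne hψ hrel O hmem hunit
  have hu0 : O.valuation (ι u) ≠ 0 := (Valuation.ne_zero_iff _).mpr (algebraMap_ne_zero' hu.ne_zero)
  have hf20 : O.valuation (ι f2) ≠ 0 := (Valuation.ne_zero_iff _).mpr (algebraMap_ne_zero' hf2)
  have h2 := congrArg (fun x => O.valuation (ι x)) hfact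
  simp only [map_mul, map_pow] at h2
  rw [valuation_eq_one O hmem hunit huu', valuation_eq_one O hmem hunit hg1,
    valuation_eq_one O hmem hunit hg2, valuation_eq_one O hmem hunit huε] at h2
  simp only [one_pow, mul_one, one_mul] at h2
  rw [map_div₀, hvp, zpow_sub₀ hu0, zpow_natCast, zpow_natCast, div_eq_div_iff hf20
    (pow_ne_zero _ hu0), h2]

/-- **(TAME), valuation form; `(n4)` in the exact-exponent form `H` of
`Edge.exists_edge_factorisation_field`.** -/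
theorem tame_val {p : ℕ} {u u' ψ : S} (hu : Prime u) (hu' : Prime u')
    (hne : ¬ Associated u u') (hψ : IsUnit ψ) (hrel : u * u' = (p : S) * ψ)
    (Oinf Ozero : ValuationSubring F0)
    (hInf_mem : ∀ x : S, ι x ∈ Oinf) (hInf_unit : ∀ x : S, ¬ u ∣ x → (ι x)⁻¹ ∈ Oinf)
    (hInf_p : (((p : ℕ) : F0))⁻¹ ∉ Oinf)
    (hZero_mem : ∀ x : S, ι x ∈ Ozero) (hZero_unit : ∀ x : S, ¬ u' ∣ x → (ι x)⁻¹ ∈ Ozero)
    (hZero_p : (((p : ℕ) : F0))⁻¹ ∉ Ozero)
    (redInf : Oinf →+* κ)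
    (Ps : Place k κ)
    (hPs_nonneg : ∀ x : S, 0 ≤ Ps.ord (redInf ⟨ι x, hInf_mem x⟩))
    (hPs_u' : Ps.ord (redInf ⟨ι u', hInf_mem u'⟩) = 1)
    (hp0 : 0 < p) {f : F0} (hf : f ≠ 0)
    (H : ∀ h : S, Prime h → ¬ Associated h u → ¬ Associated h u' →
      ∀ f1 f2 : S, f2 ≠ 0 → f * ι f2 = ι f1 →
      ∀ n1 n2 : ℕ, h ^ n1 ∣ f1 → ¬ h ^ (n1 + 1) ∣ f1 → h ^ n2 ∣ f2 → ¬ h ^ (n2 + 1) ∣ f2 →
        (p : ℤ) ∣ (n1 : ℤ) - n2)
    {a b : ℤ} (ha : Oinf.valuation f = Oinf.valuation ((p : ℕ) : F0) ^ a)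
    (hb : Ozero.valuation f = Ozero.valuation ((p : ℕ) : F0) ^ b) :
    ∃ hmem : f / ((p : ℕ) : F0) ^ a ∈ Oinf,
      Ps.ord (redInf ⟨f / ((p : ℕ) : F0) ^ a, hmem⟩) ≡ b - a [ZMOD p] := by
  -- the ring hom `r : S → κ`
  let jS : S →+* Oinf := (ι).codRestrict Oinf.toSubring hInf_mem
  let r : S →+* κ := redInf.comp jS
  have hr : ∀ x : S, r x = redInf ⟨ι x, hInf_mem x⟩ := fun x => rfl
  have hp0' : ((p : ℕ) : F0) ≠ 0 := by
    intro h0
    apply hInf_p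
    rw [h0, inv_zero]
    exact Oinf.zero_mem
  have hvpI : Oinf.valuation ((p : ℕ) : F0) < 1 := valuation_lt_one_of_inv_notMem Oinf hInf_p
  have hvpZ : Ozero.valuation ((p : ℕ) : F0) < 1 := valuation_lt_one_of_inv_notMem Ozero hZero_p
  have hvpI0 : Oinf.valuation ((p : ℕ) : F0) ≠ 0 := (Valuation.ne_zero_iff _).mpr hp0'
  have hvpZ0 : Ozero.valuation ((p : ℕ) : F0) ≠ 0 := (Valuation.ne_zero_iff _).mpr hp0'
  -- write `f = f1 / f2` and factor
  obtain ⟨f1, f2, hf2mem, rfl⟩ := IsFractionRing.div_surjective (A := S) f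
  have hf2 : f2 ≠ 0 := nonZeroDivisors.ne_zero hf2mem
  have hf2K : ι f2 ≠ 0 := algebraMap_ne_zero' hf2
  have hf1 : f1 ≠ 0 := by
    rintro rfl; simp at hf
  obtain ⟨a1, b1, a2, b2, ε, g1, g2, hfact, hug1, hu'g1, hug2, hu'g2⟩ :=
    exists_edge_factorisation_div hp0.ne' hu hu' f1 f2 hf1 hf2
      (fun h hpr h1 h2 n1 n2 =>
        H h hpr h1 h2 f1 f2 hf2 (div_mul_cancel₀ _ hf2K) n1 n2)
  -- `a = a1 - a2`, `b = b1 - b2`
  have haa : a = (a1 : ℤ) - a2 := by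
    rw [valuation_div_eq_zpow hu hu' hne hψ hrel Oinf hInf_mem hInf_unit hf2 hfact hug1 hug2] at ha
    exact (zpow_inj_of_lt_one hvpI0 hvpI ha).symm
  have hbb : b = (b1 : ℤ) - b2 := by
    have hrel' : u' * u = (p : S) * ψ := by rw [mul_comm, hrel]
    have hne' : ¬ Associated u' u := fun h => hne h.symm
    have hfact' : f1 * (u' ^ b2 * u ^ a2 * g2 ^ p) = ε * u' ^ b1 * u ^ a1 * g1 ^ p * f2 := by
      linear_combination hfact
    rw [valuation_div_eq_zpow hu' hu hne' hψ hrel' Ozero hZero_mem hZero_unit hf2 hfact' hu'g1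
      hu'g2] at hb
    exact (zpow_inj_of_lt_one hvpZ0 hvpZ hb).symm
  -- the normalised function as a quotient of `u`-units
  have hψ0 : ψ ≠ 0 := hψ.ne_zero
  have huψ : ¬ u ∣ ψ := fun h => hu.not_isUnit (isUnit_of_dvd_unit h hψ)
  have huε : ¬ u ∣ (ε : S) := fun h => hu.not_isUnit (isUnit_of_dvd_unit h ε.isUnit)
  have huu' : ¬ u ∣ u' := fun h => hne (hu.associated_of_dvd hu' h)
  set N1 : S := ε * ψ ^ a1 * u' ^ (b1 + a2) * g1 ^ p with hN1
  set N2 : S := ψ ^ a2 * u' ^ (b2 + a1) * g2 ^ p with hN2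
  have huN1 : ¬ u ∣ N1 := by
    intro h
    rcases hu.dvd_or_dvd h with h | h
    · rcases hu.dvd_or_dvd h with h | h
      · rcases hu.dvd_or_dvd h with h | h
        · exact huε h
        · exact huψ (hu.dvd_of_dvd_pow h)
      · exact huu' (hu.dvd_of_dvd_pow h)
    · exact hug1 (hu.dvd_of_dvd_pow h)
  have huN2 : ¬ u ∣ N2 := by
    intro h
    rcases hu.dvd_or_dvd h with h | h
    · rcases hu.dvd_or_dvd h with h | h
      · exact huψ (hu.dvd_of_dvd_pow h)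
      · exact huu' (hu.dvd_of_dvd_pow h)
    · exact hug2 (hu.dvd_of_dvd_pow h)
  have hkey : ι f1 / ι f2 / ((p : ℕ) : F0) ^ a = ι N1 * (ι N2)⁻¹ := by
    rw [haa]
    have e1 : ((p : ℕ) : F0) = ι u * ι u' / ι ψ := by
      rw [← map_mul, hrel, map_mul, map_natCast]; field_simp [algebraMap_ne_zero' hψ0]
    have hu0' : ι u ≠ 0 := algebraMap_ne_zero' hu.ne_zero
    have hu'0 : ι u' ≠ 0 := algebraMap_ne_zero' hu'.ne_zero
    have hψ0' : ι ψ ≠ 0 := algebraMap_ne_zero' hψ0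
    have hg20 : ι g2 ≠ 0 := algebraMap_ne_zero' (fun h0 => hug2 (h0 ▸ dvd_zero u))
    have hK := congrArg (ι) hfact
    simp only [map_mul, map_pow] at hK
    have hf1K : ι f1 = ι ε * ι u ^ a1 * ι u' ^ b1 * ι g1 ^ p * ι f2 /
        (ι u ^ a2 * ι u' ^ b2 * ι g2 ^ p) := by
      rw [eq_div_iff (by positivity), hK]
    rw [zpow_sub₀ hp0', zpow_natCast, zpow_natCast, e1, hf1K]
    simp only [hN1, hN2, map_mul, map_pow, div_pow, mul_pow, pow_add]
    field_simp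
  have hN2inv : (ι N2)⁻¹ ∈ Oinf := hInf_unit N2 huN2
  have hmem : ι f1 / ι f2 / ((p : ℕ) : F0) ^ a ∈ Oinf := by
    rw [hkey]
    exact Oinf.mul_mem _ _ (hInf_mem N1) hN2inv
  refine ⟨hmem, ?_⟩
  -- `r` does not vanish outside `(u)`
  have hrne : ∀ x : S, ¬ u ∣ x → r x ≠ 0 := by
    intro x hx h0
    have hx0 : ι x ≠ 0 := algebraMap_ne_zero' (fun h0 => hx (h0 ▸ dvd_zero u))
    have e3 : jS x * ⟨(ι x)⁻¹, hInf_unit x hx⟩ = 1 := Subtype.ext (mul_inv_cancel₀ hx0)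
    have e4 := congrArg redInf e3
    rw [map_mul, map_one] at e4
    have : r x = redInf (jS x) := rfl
    rw [← this, h0, zero_mul] at e4
    exact zero_ne_one e4
  have hnn : ∀ x : S, 0 ≤ Ps.ord (r x) := hPs_nonneg
  have hrε := ord_unit_eq_zero r Ps hnn ε.isUnit
  have hrψ := ord_unit_eq_zero r Ps hnn hψ
  have hru' : r u' ≠ 0 := hrne u' huu'
  have hrg1 : r g1 ≠ 0 := hrne g1 hug1
  have hrg2 : r g2 ≠ 0 := hrne g2 hug2
  have hO1 : Ps.ord (r N1) = ((b1 + a2 : ℕ) : ℤ) + (p : ℤ) * Ps.ord (r g1) := by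
    rw [hN1, map_mul, map_mul, map_mul, map_pow, map_pow, map_pow,
      Ps.ord_mul (mul_ne_zero (mul_ne_zero hrε.2 (pow_ne_zero _ hrψ.2)) (pow_ne_zero _ hru'))
        (pow_ne_zero _ hrg1),
      Ps.ord_mul (mul_ne_zero hrε.2 (pow_ne_zero _ hrψ.2)) (pow_ne_zero _ hru'),
      Ps.ord_mul hrε.2 (pow_ne_zero _ hrψ.2), ord_pow', ord_pow', ord_pow', hrε.1, hrψ.1,
      show Ps.ord (r u') = 1 from hPs_u']
    ring
  have hO2 : Ps.ord (r N2) = ((b2 + a1 : ℕ) : ℤ) + (p : ℤ) * Ps.ord (r g2) := by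
    rw [hN2, map_mul, map_mul, map_pow, map_pow, map_pow,
      Ps.ord_mul (mul_ne_zero (pow_ne_zero _ hrψ.2) (pow_ne_zero _ hru')) (pow_ne_zero _ hrg2),
      Ps.ord_mul (pow_ne_zero _ hrψ.2) (pow_ne_zero _ hru'), ord_pow', ord_pow', ord_pow',
      hrψ.1, show Ps.ord (r u') = 1 from hPs_u']
    ring
  -- `redInf (f / p^a) = r N1 / r N2`
  have hred : redInf ⟨ι f1 / ι f2 / ((p : ℕ) : F0) ^ a, hmem⟩ = r N1 * (r N2)⁻¹ := by
    have hN20 : ι N2 ≠ 0 := algebraMap_ne_zero' (fun h0 => huN2 (h0 ▸ dvd_zero u))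
    have e1 : (⟨ι f1 / ι f2 / ((p : ℕ) : F0) ^ a, hmem⟩ : Oinf) =
        jS N1 * ⟨(ι N2)⁻¹, hN2inv⟩ := Subtype.ext hkey
    have e2 : redInf ⟨(ι N2)⁻¹, hN2inv⟩ = (r N2)⁻¹ := by
      have e3 : jS N2 * ⟨(ι N2)⁻¹, hN2inv⟩ = 1 := Subtype.ext (mul_inv_cancel₀ hN20)
      have e4 := congrArg redInf e3
      rw [map_mul, map_one] at e4
      exact eq_inv_of_mul_eq_one_right e4
    rw [e1, map_mul, e2]
    rfl
  rw [hred, Ps.ord_mul (hrne N1 huN1) (inv_ne_zero (hrne N2 huN2)), Ps.ord_inv, hO1, hO2, hbb, haa]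
  have : (((b1 + a2 : ℕ) : ℤ) + (p : ℤ) * Ps.ord (r g1) +
      -(((b2 + a1 : ℕ) : ℤ) + (p : ℤ) * Ps.ord (r g2))) =
      ((b1 : ℤ) - b2 - ((a1 : ℤ) - a2)) + (p : ℤ) * (Ps.ord (r g1) - Ps.ord (r g2)) := by
    push_cast; ring
  rw [this]
  exact Int.modEq_iff_dvd.mpr ⟨-(Ps.ord (r g1) - Ps.ord (r g2)), by ring⟩

/-- `(n4)`: the multiplicity form implies the exact-exponent form `H`. -/
theorem exact_of_multiplicity {u u' : S} {p : ℕ} {f : F0} (hf : f ≠ 0)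
    (hdiv : ∀ q : S, Prime q → ¬ Associated q u → ¬ Associated q u' →
      ∀ f1 f2 : S, f1 ≠ 0 → f2 ≠ 0 → f = ι f1 / ι f2 →
        (p : ℤ) ∣ (multiplicity q f1 : ℤ) - multiplicity q f2) :
    ∀ h : S, Prime h → ¬ Associated h u → ¬ Associated h u' →
      ∀ f1 f2 : S, f2 ≠ 0 → f * ι f2 = ι f1 →
      ∀ n1 n2 : ℕ, h ^ n1 ∣ f1 → ¬ h ^ (n1 + 1) ∣ f1 → h ^ n2 ∣ f2 → ¬ h ^ (n2 + 1) ∣ f2 →
        (p : ℤ) ∣ (n1 : ℤ) - n2 := by
  intro h hpr h1 h2 f1 f2 hf2 hmul n1 n2 hn1 hn1' hn2 hn2'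
  have hf2K : ι f2 ≠ 0 := algebraMap_ne_zero' hf2
  have hf1 : f1 ≠ 0 := by
    rintro rfl
    rw [map_zero] at hmul
    exact hf ((mul_eq_zero.mp hmul).resolve_right hf2K)
  have hff : f = ι f1 / ι f2 := by rw [← hmul, mul_div_cancel_right₀ _ hf2K]
  have e1 : multiplicity h f1 = n1 := multiplicity_eq_of_dvd_of_not_dvd hn1 hn1'
  have e2 : multiplicity h f2 = n2 := multiplicity_eq_of_dvd_of_not_dvd hn2 hn2'
  have := hdiv h hpr h1 h2 f1 f2 hf1 hf2 hff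
  rwa [e1, e2] at this

section Places

open Fermat.Agent.S40x.PrimePlace

variable {K0 : Type*} [Field K0] [Algebra K0 F0]

/-- a prime `q` not associated to `u`, `u'` does not divide `p ^ n` (`u u' = p ψ`). -/
theorem not_dvd_natCast_pow {p : ℕ} {u u' ψ q : S} (hu : Prime u) (hu' : Prime u') (hq : Prime q)
    (hrel : u * u' = (p : S) * ψ) (h1 : ¬ Associated q u) (h2 : ¬ Associated q u') (n : ℕ) :
    ¬ q ∣ (p : S) ^ n := by
  intro h
  have h3 : q ∣ (p : S) := hq.dvd_of_dvd_pow h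
  have h4 : q ∣ u * u' := hrel ▸ Dvd.dvd.mul_right h3 ψ
  rcases hq.dvd_or_dvd h4 with h5 | h5
  · exact h1 (hq.associated_of_dvd hu h5)
  · exact h2 (hq.associated_of_dvd hu' h5)

/-- `(n4)`: the place form over `K0 ⊆ S[1/p]` implies the multiplicity form. -/
theorem multiplicity_of_places {p : ℕ} {u u' ψ : S} (hu : Prime u) (hu' : Prime u')
    (hrel : u * u' = (p : S) * ψ)
    (hK0 : ∀ c : K0, ∃ (x : S) (n : ℕ), algebraMap K0 F0 c * ((p : ℕ) : F0) ^ n = ι x)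
    {f : F0} (hplaces : ∀ v : Place K0 F0, (p : ℤ) ∣ v.ord f) :
    ∀ q : S, Prime q → ¬ Associated q u → ¬ Associated q u' →
      ∀ f1 f2 : S, f1 ≠ 0 → f2 ≠ 0 → f = ι f1 / ι f2 →
        (p : ℤ) ∣ (multiplicity q f1 : ℤ) - multiplicity q f2 := by
  intro q hq h1 h2 f1 f2 hf1 hf2 hff
  have hK : ∀ c : K0, algebraMap K0 F0 c ∈ valuationSubring (F := F0) hq := by
    intro c
    obtain ⟨x, n, hx⟩ := hK0 c
    refine ⟨x, (p : S) ^ n, not_dvd_natCast_pow hu hu' hq hrel h1 h2 n, ?_⟩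
    rw [map_pow, map_natCast]; exact hx
  exact dvd_sub_of_forall_place hq hK hf1 hf2 (fun v => hff ▸ hplaces v)

/-- **(TAME), valuation form, place-level `(n4)`**: `p ∣ v.ord f` for every place `v` of
`F0 / K0`, where `K0 ⊆ S[1/p]`. -/
theorem tame_val_of_places {p : ℕ} {u u' ψ : S} (hu : Prime u) (hu' : Prime u')
    (hne : ¬ Associated u u') (hψ : IsUnit ψ) (hrel : u * u' = (p : S) * ψ)
    (Oinf Ozero : ValuationSubring F0)
    (hInf_mem : ∀ x : S, ι x ∈ Oinf) (hInf_unit : ∀ x : S, ¬ u ∣ x → (ι x)⁻¹ ∈ Oinf)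
    (hInf_p : (((p : ℕ) : F0))⁻¹ ∉ Oinf)
    (hZero_mem : ∀ x : S, ι x ∈ Ozero) (hZero_unit : ∀ x : S, ¬ u' ∣ x → (ι x)⁻¹ ∈ Ozero)
    (hZero_p : (((p : ℕ) : F0))⁻¹ ∉ Ozero)
    (redInf : Oinf →+* κ)
    (Ps : Place k κ)
    (hPs_nonneg : ∀ x : S, 0 ≤ Ps.ord (redInf ⟨ι x, hInf_mem x⟩))
    (hPs_u' : Ps.ord (redInf ⟨ι u', hInf_mem u'⟩) = 1)
    (hK0 : ∀ c : K0, ∃ (x : S) (n : ℕ), algebraMap K0 F0 c * ((p : ℕ) : F0) ^ n = ι x)
    (hp0 : 0 < p) {f : F0} (hf : f ≠ 0)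
    (hplaces : ∀ v : Place K0 F0, (p : ℤ) ∣ v.ord f)
    {a b : ℤ} (ha : Oinf.valuation f = Oinf.valuation ((p : ℕ) : F0) ^ a)
    (hb : Ozero.valuation f = Ozero.valuation ((p : ℕ) : F0) ^ b) :
    ∃ hmem : f / ((p : ℕ) : F0) ^ a ∈ Oinf,
      Ps.ord (redInf ⟨f / ((p : ℕ) : F0) ^ a, hmem⟩) ≡ b - a [ZMOD p] :=
  tame_val hu hu' hne hψ hrel Oinf Ozero hInf_mem hInf_unit hInf_p hZero_mem hZero_unit hZero_p
    redInf Ps hPs_nonneg hPs_u' hp0 hf
    (exact_of_multiplicity hf (multiplicity_of_places hu hu' hrel hK0 hplaces)) ha hb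

end Places

/-- the conclusion of (TAME) in the vocabulary of `Slope/SlopeInv` (`red` = reduction extended by
zero, `slopeFn` = order of the reduction modulo `p`). -/
theorem zmod_dite_of_tame {p : ℕ} (Oinf : ValuationSubring F0) (redInf : Oinf →+* κ)
    (Ps : Place k κ) {w : F0} {c : ℤ} [∀ x : F0, Decidable (x ∈ Oinf)]
    (h : ∃ hmem : w ∈ Oinf, Ps.ord (redInf ⟨w, hmem⟩) ≡ c [ZMOD p]) :
    ((Ps.ord (if h : w ∈ Oinf then redInf ⟨w, h⟩ else 0) : ℤ) : ZMod p) = ((c : ℤ) : ZMod p) := by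
  obtain ⟨hmem, hc⟩ := h
  rw [dif_pos hmem]
  exact (ZMod.intCast_eq_intCast_iff _ _ _).mpr hc

/-- existence of the exponent `a` with `v f = v(p) ^ a` (`a = v_inf f` for `O = Oinf`; for
`Ozero` apply it with `u`, `u'` exchanged). -/
theorem exists_valuation_eq_zpow {p : ℕ} {u u' ψ : S} (hu : Prime u) (hu' : Prime u')
    (hne : ¬ Associated u u') (hψ : IsUnit ψ) (hrel : u * u' = (p : S) * ψ)
    (O : ValuationSubring F0)
    (hmem : ∀ x : S, ι x ∈ O) (hunit : ∀ x : S, ¬ u ∣ x → (ι x)⁻¹ ∈ O)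
    {f : F0} (hf : f ≠ 0) :
    ∃ a : ℤ, O.valuation f = O.valuation ((p : ℕ) : F0) ^ a := by
  obtain ⟨f1, f2, hf2mem, rfl⟩ := IsFractionRing.div_surjective (A := S) f
  have hf2 : f2 ≠ 0 := nonZeroDivisors.ne_zero hf2mem
  have hf1 : f1 ≠ 0 := by
    rintro rfl; simp at hf
  obtain ⟨a1, g1, hg1, e1⟩ := WfDvdMonoid.max_power_factor hf1 hu.irreducible
  obtain ⟨a2, g2, hg2, e2⟩ := WfDvdMonoid.max_power_factor hf2 hu.irreducible
  refine ⟨(a1 : ℤ) - a2, ?_⟩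
  have hfact : f1 * (u ^ a2 * u' ^ 0 * g2 ^ 1) = ((1 : Sˣ) : S) * u ^ a1 * u' ^ 0 * g1 ^ 1 * f2 := by
    rw [e1, e2]; simp only [Units.val_one]; ring
  exact valuation_div_eq_zpow hu hu' hne hψ hrel O hmem hunit hf2 hfact hg1 hg2

end Main

end Fermat.Agent.S40x.TameVal
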